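/-
S19lib / B / Special  (helper6, Project FF, block FF-B, part 1: residue side).

**Generic position on a curve from Riemann's theorem alone** (`S18lib.IsCurveOfGenus`: Riemann's
inequality + equality in large degree; no canonical class is used).

* `ell D` = `dim L(D)`; `ell_add_single_le` : `ℓ(D + P) ≤ ℓ(D) + 1`;
* `ell_supermod` : `ℓ(D+P) + ℓ(D+Q) ≤ ℓ(D+P+Q) + ℓ(D)` (`P ≠ Q`);
* `Jump D P` : `ℓ(D+P) = ℓ(D)+1`; jumps persist (`Jump.add`, `Jump.add_sum`), hence
  `finite_jump` : if `ℓ(D) > deg D + 1 - g` (`D` special) then only finitely many `P` jump;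
* **`exists_nonspecial`** : for `d ≤ g` and a finite set `S` of places there are `d` distinct
  places outside `S` with `ℓ(Q₁ + … + Q_d) = 1`.
-/
import Mathlib
import Fermat.Agent.S18lib.Cech.CurveBasics
import Fermat.Agent.S37lib.Red.Curve

set_option autoImplicit false
set_option linter.unusedSectionVars false

noncomputable section

namespace Fermat.Agent.S19lib.B

open AlgebraicCurve Module
open Fermat.Agent.S18lib Fermat.Agent.S18lib.Cech Fermat.Agent.S37lib

variable {K F : Type*} [Field K] [Field F] [Algebra K F] {g : ℕ}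

/-- `ℓ(D) = dim_K L(D)` -/
def ell (D : Divisor K F) : ℕ := finrank K (riemannRochSpace D)

theorem ell_def (D : Divisor K F) : ell D = finrank K (riemannRochSpace D) := rfl

/-- the point `P` as a divisor -/
abbrev pt (P : Place K F) : Divisor K F := Finsupp.single P 1

theorem rr_le_add_pt (D : Divisor K F) (P : Place K F) :
    riemannRochSpace D ≤ riemannRochSpace (D + pt P) := by
  classical
  refine rr_mono fun v => ?_
  rw [Finsupp.add_apply, Finsupp.single_apply]
  split_ifs <;> omega

/-- `L(D + P) ∩ L(D + Q) = L(D)` for `P ≠ Q` -/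
theorem rr_inf_le {D : Divisor K F} {P Q : Place K F} (h : P ≠ Q) :
    riemannRochSpace (D + pt P) ⊓ riemannRochSpace (D + pt Q) ≤ riemannRochSpace D := by
  classical
  rintro f ⟨hP, hQ⟩
  rw [SetLike.mem_coe, mem_rr_iff] at hP hQ
  rw [mem_rr_iff]
  intro v
  rcases hP v with h0 | h1
  · exact Or.inl h0
  rcases hQ v with h0 | h2
  · exact Or.inl h0
  right
  rw [Finsupp.add_apply, Finsupp.single_apply] at h1 h2
  by_cases hv : P = v
  · have hv' : ¬ Q = v := fun hq => h (hv.trans hq.symm)
    rw [if_neg hv'] at h2
    omega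
  · rw [if_neg hv] at h1
    omega

section Curve

variable (hF : IsCurveOfGenus K F g)
include hF

theorem ell_le_ell_add_pt (D : Divisor K F) (P : Place K F) : ell D ≤ ell (D + pt P) := by
  have := hF.finiteDimensional (D + pt P)
  exact Submodule.finrank_mono (rr_le_add_pt D P)

/-- `ℓ(D + P) ≤ ℓ(D) + 1` -/
theorem ell_add_single_le (D : Divisor K F) (P : Place K F) : ell (D + pt P) ≤ ell D + 1 := by
  classical
  have h1 := hF.finiteDimensional D
  have h2 := hF.finiteDimensional (D + pt P)
  by_cases h : riemannRochSpace (D + pt P) ≤ riemannRochSpace D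
  · exact le_trans (Submodule.finrank_mono h) (Nat.le_succ _)
  · obtain ⟨y, hy, hyD⟩ := SetLike.not_le_iff_exists.1 h
    have hle : riemannRochSpace (D + pt P) ≤ riemannRochSpace D ⊔ Submodule.span K {y} := by
      intro x hx
      obtain ⟨c, hc⟩ := exists_sub_smul_mem_rr hF D P hx hy hyD
      rw [Submodule.mem_sup]
      exact ⟨x - c • y, hc, c • y,
        Submodule.smul_mem _ _ (Submodule.mem_span_singleton_self y), by abel⟩
    calc ell (D + pt P)
        ≤ finrank K ↥(riemannRochSpace D ⊔ Submodule.span K {y}) := Submodule.finrank_mono hle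
      _ ≤ finrank K (riemannRochSpace D) + finrank K (Submodule.span K {y}) :=
          Submodule.finrank_add_le_finrank_add_finrank _ _
      _ ≤ ell D + 1 := by
          have : finrank K (Submodule.span K {y}) ≤ 1 := by
            have := finrank_span_le_card (R := K) ({y} : Set F)
            simpa using this
          rw [ell_def]
          omega

/-- supermodularity of `ℓ` -/
theorem ell_supermod (D : Divisor K F) {P Q : Place K F} (h : P ≠ Q) :
    ell (D + pt P) + ell (D + pt Q) ≤ ell (D + pt P + pt Q) + ell D := by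
  have h0 := hF.finiteDimensional D
  have h1 := hF.finiteDimensional (D + pt P)
  have h2 := hF.finiteDimensional (D + pt Q)
  have h3 := hF.finiteDimensional (D + pt P + pt Q)
  have hsup : riemannRochSpace (D + pt P) ⊔ riemannRochSpace (D + pt Q) ≤
      riemannRochSpace (D + pt P + pt Q) := by
    refine sup_le (rr_le_add_pt _ _) ?_
    have : D + pt P + pt Q = D + pt Q + pt P := by abel
    rw [this]
    exact rr_le_add_pt _ _
  have e := Submodule.finrank_sup_add_finrank_inf_eq (riemannRochSpace (D + pt P))
    (riemannRochSpace (D + pt Q))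
  have e1 := Submodule.finrank_mono hsup
  have e2 := Submodule.finrank_mono (rr_inf_le (D := D) h)
  simp only [ell_def]
  omega

/-- adding `P` raises the dimension -/
def Jump (D : Divisor K F) (P : Place K F) : Prop := ell (D + pt P) = ell D + 1

omit hF in
theorem jump_def {D : Divisor K F} {P : Place K F} :
    Jump D P ↔ ell (D + pt P) = ell D + 1 := Iff.rfl

/-- jumps persist when other points are added -/
theorem Jump.add {D : Divisor K F} {P Q : Place K F} (h : Jump D P) (hQ : Q ≠ P) :
    Jump (D + pt Q) P := by
  have h1 := ell_supermod hF D hQ.symm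
  have h2 := ell_add_single_le hF (D + pt Q) P
  have e : D + pt P + pt Q = D + pt Q + pt P := by abel
  rw [e, jump_def.1 h] at h1
  rw [jump_def]
  omega

theorem Jump.add_sum {D : Divisor K F} {P : Place K F} (h : Jump D P)
    (s : Finset (Place K F)) (hP : P ∉ s) : Jump (D + ∑ Q ∈ s, pt Q) P := by
  classical
  induction s using Finset.induction_on with
  | empty => simpa using h
  | insert Q s hQ ih =>
    rw [Finset.sum_insert hQ]
    have hne : Q ≠ P := fun e => hP (e ▸ Finset.mem_insert_self Q s)
    have := (ih (fun hs => hP (Finset.mem_insert_of_mem hs))).add hF hne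
    have e : D + (pt Q + ∑ Q ∈ s, pt Q) = D + ∑ Q ∈ s, pt Q + pt Q := by abel
    rw [e]
    exact this

/-- adding jumping points one after the other -/
theorem ell_add_sum_of_jump (D : Divisor K F) (s : Finset (Place K F))
    (h : ∀ P ∈ s, Jump D P) : ell (D + ∑ P ∈ s, pt P) = ell D + s.card := by
  classical
  induction s using Finset.induction_on with
  | empty => simp
  | insert P s hP ih =>
    rw [Finset.sum_insert hP, Finset.card_insert_of_notMem hP]
    have hj := (h P (Finset.mem_insert_self P s)).add_sum hF s hP
    have e : D + (pt P + ∑ Q ∈ s, pt Q) = D + ∑ Q ∈ s, pt Q + pt P := by abel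
    rw [e, jump_def.1 hj, ih fun Q hQ => h Q (Finset.mem_insert_of_mem hQ)]
    ring

theorem degree_sum_pt (s : Finset (Place K F)) :
    Divisor.degree (∑ P ∈ s, pt P) = s.card := by
  rw [map_sum, Finset.sum_congr rfl fun P _ => Curve.degree_single_one hF P]
  simp

/-- **a special divisor has only finitely many jumping points** -/
theorem finite_jump (D : Divisor K F) (h : Divisor.degree D + 1 - (g : ℤ) < ell D) :
    {P : Place K F | Jump D P}.Finite := by
  classical
  by_contra hinf
  have hinf' : {P : Place K F | Jump D P}.Infinite := hinf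
  obtain ⟨m, hm⟩ : ∃ m : ℕ, 2 * (g : ℤ) - 2 < Divisor.degree D + m :=
    ⟨(2 * (g : ℤ) - 1 - Divisor.degree D).toNat, by
      have := Int.self_le_toNat (2 * (g : ℤ) - 1 - Divisor.degree D); omega⟩
  obtain ⟨s, hs, hcard⟩ := hinf'.exists_subset_card_eq m
  have h1 := ell_add_sum_of_jump hF D s (fun P hP => hs hP)
  have h2 := hF.riemann_eq (D + ∑ P ∈ s, pt P) (by
    rw [map_add, degree_sum_pt hF, hcard]; exact hm)
  rw [map_add, degree_sum_pt hF, hcard] at h2
  rw [← ell_def, h1, hcard] at h2
  push_cast at h2
  omega

theorem ell_zero : ell (0 : Divisor K F) = 1 := by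
  rw [ell_def, hF.riemannRochSpace_zero]
  exact Subalgebra.finrank_bot

/-- **non-special effective divisors with distinct points in general position** -/
theorem exists_nonspecial (S : Finset (Place K F)) (d : ℕ) (hd : d ≤ g) :
    ∃ Q : Fin d → Place K F, Function.Injective Q ∧ (∀ i, Q i ∉ S) ∧
      ell (∑ i, pt (Q i)) = 1 := by
  classical
  induction d with
  | zero =>
    refine ⟨Fin.elim0, fun i => i.elim0, fun i => i.elim0, ?_⟩
    rw [Finset.univ_eq_empty, Finset.sum_empty]
    exact ell_zero hF
  | succ d ih =>
    obtain ⟨Q, hQinj, hQS, hQ⟩ := ih (Nat.le_of_succ_le hd)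
    set D : Divisor K F := ∑ i, pt (Q i) with hD
    have hdeg : Divisor.degree D = d := by
      rw [hD, map_sum, Finset.sum_congr rfl fun i _ => Curve.degree_single_one hF (Q i)]
      simp
    have hfin := finite_jump hF D (by rw [hdeg, hQ]; push_cast; omega)
    have := hF.infinite_places
    obtain ⟨P, hP⟩ := ((hfin.union (S.finite_toSet)).union
      (Set.finite_range Q)).exists_notMem
    simp only [Set.mem_union, Set.mem_ofPred_eq, Finset.mem_coe, Set.mem_range, not_or,
      not_exists] at hP
    obtain ⟨⟨hPj, hPS⟩, hPQ⟩ := hP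
    refine ⟨Fin.cons P Q, ?_, ?_, ?_⟩
    · rw [Fin.cons_injective_iff]
      exact ⟨fun ⟨i, hi⟩ => hPQ i hi, hQinj⟩
    · intro i
      refine Fin.cases ?_ (fun j => ?_) i
      · rw [Fin.cons_zero]; exact hPS
      · rw [Fin.cons_succ]; exact hQS j
    · have e : (∑ i : Fin (d + 1), pt ((Fin.cons P Q : Fin (d + 1) → Place K F) i)) =
          D + pt P := by
        rw [Fin.sum_univ_succ]
        simp only [Fin.cons_zero, Fin.cons_succ]
        rw [add_comm]
      rw [e]
      have h1 := ell_add_single_le hF D P
      have h2 := ell_le_ell_add_pt hF D P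
      rw [jump_def] at hPj
      rw [hQ] at h1 h2 hPj
      omega

end Curve

end Fermat.Agent.S19lib.B
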