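/-
S19lib / B / Avoid  (helper6, Project FF, block FF-B, part 2: residue side).

* `exists_section_avoiding` : for `deg M ≥ 2g` and a finite set `S` of places (`K` infinite) there
  is `f ∈ L(M)`, `f ≠ 0`, with `ord_P f = -M(P)` for all `P ∈ S` (the effective divisor
  `div f + M` avoids `S`);
* `exists_effective_avoiding` : the same, phrased with the effective divisor `C = div f + M`;
* `GenPos` : **the generic position package on a curve** (residue side of FF-B) relative to a
  frame divisor `Yb` and a finite set `S` of places to avoid, and its existence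
  `exists_genPos`.
-/
import Mathlib
import Fermat.Agent.S19lib.B.Special
import Fermat.Agent.S37lib.Red.Pencil

set_option autoImplicit false
set_option linter.unusedSectionVars false

noncomputable section

namespace Fermat.Agent.S19lib.B

open AlgebraicCurve Module
open Fermat.Agent.S18lib Fermat.Agent.S18lib.Cech Fermat.Agent.S37lib

variable {K F : Type*} [Field K] [Field F] [Algebra K F] {g : ℕ}

section Curve

variable (hF : IsCurveOfGenus K F g)
include hF

/-- a section of `L(M)` which is a generator of `O(M)` at every point of the finite set `S` -/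
theorem exists_section_avoiding [Infinite K] {M : Divisor K F}
    (hM : 2 * (g : ℤ) ≤ Divisor.degree M) (S : Finset (Place K F)) :
    ∃ f ∈ riemannRochSpace M, f ≠ 0 ∧ ∀ P ∈ S, P.ord f = -M P := by
  classical
  have hfd := hF.finiteDimensional M
  have hpos : 0 < finrank K (riemannRochSpace M) := by
    have := hF.riemann_eq M (by linarith)
    omega
  rcases S.eq_empty_or_nonempty with hS | ⟨P₀, hP₀⟩
  · obtain ⟨⟨f, hfM⟩, hf0⟩ := (Module.finrank_pos_iff_exists_ne_zero
      (R := K) (M := riemannRochSpace M)).1 hpos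
    refine ⟨f, hfM, fun h => hf0 (Subtype.ext h), fun P hP => ?_⟩
    rw [hS] at hP
    exact absurd hP (Finset.notMem_empty P)
  -- a section outside the finitely many hyperplanes `L(M - P)`, `P ∈ S`
  have key : ∃ f ∈ riemannRochSpace M, ∀ P ∈ S, f ∉ riemannRochSpace (M - pt P) := by
    by_contra hcon
    push Not at hcon
    let p : S → Subspace K (riemannRochSpace M) := fun P =>
      (riemannRochSpace (M - pt (P : Place K F))).comap (riemannRochSpace M).subtype
    have hcov : ⋃ i, (p i : Set (riemannRochSpace M)) = Set.univ := by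
      rw [Set.eq_univ_iff_forall]
      intro x
      obtain ⟨P, hP, hx⟩ := hcon x.1 x.2
      exact Set.mem_iUnion.2 ⟨⟨P, hP⟩, hx⟩
    obtain ⟨i, hi⟩ := Subspace.exists_eq_top_of_iUnion_eq_univ hcov
    have hle : riemannRochSpace M ≤ riemannRochSpace (M - pt (i : Place K F)) := by
      intro x hx
      have : (⟨x, hx⟩ : riemannRochSpace M) ∈ p i := by rw [hi]; exact Submodule.mem_top
      exact this
    have h1 : (finrank K (riemannRochSpace (M - pt (i : Place K F))) : ℤ) + 1 =
        finrank K (riemannRochSpace M) := Curve.finrank_sub_single hF hM (i : Place K F)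
    have h2 := hF.finiteDimensional (M - pt (i : Place K F))
    have h3 := Submodule.finrank_mono hle
    omega
  obtain ⟨f, hfM, hf⟩ := key
  have hf0 : f ≠ 0 := by
    rintro rfl
    exact hf P₀ hP₀ (zero_mem _)
  refine ⟨f, hfM, hf0, fun P hP => ?_⟩
  have h1 := (mem_riemannRochSpace_iff.1 hfM P).resolve_left hf0
  have h2 := hf P hP
  rw [mem_riemannRochSpace_iff] at h2
  push Not at h2
  obtain ⟨v, -, hv⟩ := h2
  have hvP : v = P := by
    by_contra hne'
    have := (mem_riemannRochSpace_iff.1 hfM v).resolve_left hf0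
    rw [Finsupp.sub_apply, Finsupp.single_apply, if_neg (Ne.symm hne'), sub_zero] at hv
    linarith
  subst hvP
  rw [Finsupp.sub_apply, Finsupp.single_apply, if_pos rfl] at hv
  omega

/-- an effective divisor in the class of `M` avoiding a finite set -/
theorem exists_effective_avoiding [Infinite K] {M : Divisor K F}
    (hM : 2 * (g : ℤ) ≤ Divisor.degree M) (S : Finset (Place K F)) :
    ∃ (f : F) (C : Divisor K F), f ≠ 0 ∧ 0 ≤ C ∧ (∀ P ∈ S, C P = 0) ∧
      (∀ v : Place K F, C v = v.ord f + M v) := by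
  have := hF.hasPrincipalDivisors
  obtain ⟨f, hfM, hf0, hfS⟩ := exists_section_avoiding hF hM S
  refine ⟨f, divOf (K := K) f + M, hf0,
    ((mem_riemannRochSpace_iff_divOf (K := K)).1 hfM).resolve_left hf0, fun P hP => ?_,
    fun v => ?_⟩
  · rw [Finsupp.add_apply, divOf_apply hf0, hfS P hP]; ring
  · rw [Finsupp.add_apply, divOf_apply hf0]

end Curve

/-- **Generic position on a curve of genus `g`** relative to a frame divisor `Yb` and a finite set
`S` of places to be avoided: two non-special effective divisors `E₀ = ∑ Qb i`, `R₀ = ∑ Rb j` of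
degree `g` with `2g` distinct points outside `S`, and an effective divisor `Cb` avoiding all these
points and `S` such that `n Yb - Cb ∼ 2 E₀ + R₀`. -/
structure GenPos (K F : Type*) [Field K] [Field F] [Algebra K F] (g : ℕ)
    (Yb : Divisor K F) (S : Finset (Place K F)) where
  /-- the points of `E₀` -/
  Qb : Fin g → Place K F
  /-- the points of `R₀` -/
  Rb : Fin g → Place K F
  Qb_inj : Function.Injective Qb
  Rb_inj : Function.Injective Rb
  Qb_ne_Rb : ∀ i j, Qb i ≠ Rb j
  Qb_notMem : ∀ i, Qb i ∉ S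
  Rb_notMem : ∀ j, Rb j ∉ S
  ell_Qb : ell (∑ i, pt (Qb i)) = 1
  ell_Rb : ell (∑ j, pt (Rb j)) = 1
  /-- the multiple of the frame divisor -/
  n : ℕ
  /-- the auxiliary effective divisor -/
  Cb : Divisor K F
  Cb_nonneg : 0 ≤ Cb
  Cb_Qb : ∀ i, Cb (Qb i) = 0
  Cb_Rb : ∀ j, Cb (Rb j) = 0
  Cb_S : ∀ P ∈ S, Cb P = 0
  /-- the section with divisor `2 E₀ + R₀ - (n Yb - Cb)` -/
  s0 : F
  s0_ne : s0 ≠ 0
  ord_s0 : ∀ v : Place K F,
    v.ord s0 + ((n : ℤ) • Yb - Cb) v = ((2 : ℤ) • ∑ i, pt (Qb i) + ∑ j, pt (Rb j)) v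

namespace GenPos

variable {Yb : Divisor K F} {S : Finset (Place K F)}

/-- `E₀` -/
def E0 (G : GenPos K F g Yb S) : Divisor K F := ∑ i, pt (G.Qb i)

/-- `R₀` -/
def R0 (G : GenPos K F g Yb S) : Divisor K F := ∑ j, pt (G.Rb j)

/-- `B̄ = n Ȳ - C̄` -/
def Bb (G : GenPos K F g Yb S) : Divisor K F := (G.n : ℤ) • Yb - G.Cb

theorem ord_s0_add (G : GenPos K F g Yb S) (v : Place K F) :
    v.ord G.s0 + G.Bb v = ((2 : ℤ) • G.E0 + G.R0) v := G.ord_s0 v

theorem Bb_apply (G : GenPos K F g Yb S) (v : Place K F) :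
    G.Bb v = (G.n : ℤ) * Yb v - G.Cb v := by
  rw [Bb, Finsupp.sub_apply, Finsupp.smul_apply, smul_eq_mul]

theorem Bb_Qb (G : GenPos K F g Yb S) (hS : ∀ P, Yb P ≠ 0 → P ∈ S) (i : Fin g) :
    G.Bb (G.Qb i) = 0 := by
  have h : Yb (G.Qb i) = 0 := by
    by_contra h0
    exact G.Qb_notMem i (hS _ h0)
  rw [Bb_apply, h, G.Cb_Qb, mul_zero, sub_zero]

theorem Bb_Rb (G : GenPos K F g Yb S) (hS : ∀ P, Yb P ≠ 0 → P ∈ S) (j : Fin g) :
    G.Bb (G.Rb j) = 0 := by
  have h : Yb (G.Rb j) = 0 := by
    by_contra h0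
    exact G.Rb_notMem j (hS _ h0)
  rw [Bb_apply, h, G.Cb_Rb, mul_zero, sub_zero]

end GenPos

/-- evaluation of a sum of distinct points -/
theorem sum_pt_apply {ι : Type*} [Fintype ι] [DecidableEq (Place K F)] (Q : ι → Place K F)
    (hQ : Function.Injective Q) (v : Place K F) :
    (∑ i, pt (Q i)) v = if v ∈ Set.range Q then 1 else 0 := by
  classical
  rw [Finsupp.finsetSum_apply]
  split_ifs with h
  · obtain ⟨i, rfl⟩ := h
    rw [Finset.sum_eq_single i]
    · simp
    · intro j _ hji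
      rw [Finsupp.single_apply, if_neg fun e => hji (hQ e)]
    · intro h; exact absurd (Finset.mem_univ i) h
  · refine Finset.sum_eq_zero fun i _ => ?_
    rw [Finsupp.single_apply, if_neg fun e => h ⟨i, e⟩]

theorem sum_pt_nonneg {ι : Type*} [Fintype ι] (Q : ι → Place K F) :
    0 ≤ ∑ i, pt (Q i) :=
  Finset.sum_nonneg fun i _ => by
    classical
    rw [Finsupp.le_def]
    intro v
    rw [Finsupp.zero_apply, Finsupp.single_apply]
    split_ifs <;> simp

theorem degree_sum_pt_fin (hF : IsCurveOfGenus K F g) {ι : Type*} [Fintype ι]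
    (Q : ι → Place K F) : Divisor.degree (∑ i, pt (Q i)) = Fintype.card ι := by
  rw [map_sum, Finset.sum_congr rfl fun i _ => Curve.degree_single_one hF (Q i)]
  simp

/-- twisting by a nonzero function: `f ∈ L(D) ↔ f s⁻¹ ∈ L(D + div s)` -/
theorem mem_rr_iff_mul_inv {D D' : Divisor K F} {s : F} (hs : s ≠ 0)
    (hD : ∀ v : Place K F, D' v = D v + v.ord s) (f : F) :
    f ∈ riemannRochSpace D ↔ f * s⁻¹ ∈ riemannRochSpace D' := by
  rcases eq_or_ne f 0 with rfl | hf
  · simp
  rw [mem_rr_of_ne hf, mem_rr_of_ne (mul_ne_zero hf (inv_ne_zero hs))]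
  refine forall_congr' fun v => ?_
  rw [v.ord_mul hf (inv_ne_zero hs), v.ord_inv, hD v]
  constructor <;> intro h <;> linarith

/-- an effective divisor with `ℓ = 1` carries only the constants -/
theorem rr_eq_span_one (hF : IsCurveOfGenus K F g) {E : Divisor K F} (hE : 0 ≤ E)
    (h : ell E = 1) : riemannRochSpace E = Submodule.span K {(1 : F)} := by
  have hfd := hF.finiteDimensional E
  have h1 : (1 : F) ∈ riemannRochSpace E := one_mem_rr fun v => Finsupp.le_def.1 hE v
  symm
  apply Submodule.eq_of_le_of_finrank_eq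
  · rw [Submodule.span_le]
    rintro _ rfl
    exact h1
  · rw [finrank_span_singleton (one_ne_zero), ← ell_def, h]

/-- `L(D) = K s` when `D + div s` is effective with `ℓ = 1` -/
theorem rr_eq_span_of_ell_one (hF : IsCurveOfGenus K F g) {D E : Divisor K F} {s : F}
    (hs : s ≠ 0) (hD : ∀ v : Place K F, E v = D v + v.ord s) (hE : 0 ≤ E) (h : ell E = 1) :
    riemannRochSpace D = Submodule.span K {s} := by
  ext f
  rw [mem_rr_iff_mul_inv hs hD f, rr_eq_span_one hF hE h, Submodule.mem_span_singleton,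
    Submodule.mem_span_singleton]
  constructor
  · rintro ⟨c, hc⟩
    refine ⟨c, ?_⟩
    have : f = (c • (1 : F)) * s := by rw [hc, inv_mul_cancel_right₀ hs]
    rw [this, smul_mul_assoc, one_mul]
  · rintro ⟨c, rfl⟩
    refine ⟨c, ?_⟩
    rw [smul_mul_assoc, mul_inv_cancel₀ hs]

namespace GenPos

variable {Yb : Divisor K F} {S : Finset (Place K F)}

theorem E0_nonneg (G : GenPos K F g Yb S) : 0 ≤ G.E0 := sum_pt_nonneg _

theorem R0_nonneg (G : GenPos K F g Yb S) : 0 ≤ G.R0 := sum_pt_nonneg _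

theorem degree_E0 (hF : IsCurveOfGenus K F g) (G : GenPos K F g Yb S) :
    Divisor.degree G.E0 = g := by
  rw [E0, degree_sum_pt_fin hF, Fintype.card_fin]

theorem degree_R0 (hF : IsCurveOfGenus K F g) (G : GenPos K F g Yb S) :
    Divisor.degree G.R0 = g := by
  rw [R0, degree_sum_pt_fin hF, Fintype.card_fin]

/-- `B̄ = 2 E₀ + R₀ - div s₀` -/
theorem Bb_eq (hF : IsCurveOfGenus K F g) (G : GenPos K F g Yb S) :
    haveI := hF.hasPrincipalDivisors
    G.Bb = (2 : ℤ) • G.E0 + G.R0 - divOf (K := K) G.s0 := by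
  have := hF.hasPrincipalDivisors
  ext v
  have := G.ord_s0_add v
  rw [Finsupp.sub_apply, divOf_apply G.s0_ne, ← this]
  ring

theorem degree_Bb (hF : IsCurveOfGenus K F g) (G : GenPos K F g Yb S) :
    Divisor.degree G.Bb = 3 * g := by
  have := hF.hasPrincipalDivisors
  rw [G.Bb_eq hF, map_sub, map_add, map_zsmul, degree_divOf, G.degree_E0 hF, G.degree_R0 hF,
    smul_eq_mul]
  ring

/-- `ℓ(B̄) = 2g + 1` -/
theorem ell_Bb (hF : IsCurveOfGenus K F g) (G : GenPos K F g Yb S) :
    ell G.Bb = 2 * g + 1 := by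
  have := hF.riemann_eq G.Bb (by rw [G.degree_Bb hF]; linarith)
  rw [G.degree_Bb hF, ← ell_def] at this
  omega

/-- `L(B̄ - 2 E₀) = K s₀` -/
theorem rr_Bb_sub_two_E0 (hF : IsCurveOfGenus K F g) (G : GenPos K F g Yb S) :
    riemannRochSpace (G.Bb - (2 : ℤ) • G.E0) = Submodule.span K {G.s0} := by
  refine rr_eq_span_of_ell_one hF G.s0_ne (E := G.R0) (fun v => ?_) G.R0_nonneg G.ell_Rb
  have := G.ord_s0_add v
  rw [Finsupp.add_apply] at this
  rw [Finsupp.sub_apply]
  linarith

/-- `L(B̄ - E₀ - R₀) = K s₀` -/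
theorem rr_Bb_sub_E0_sub_R0 (hF : IsCurveOfGenus K F g) (G : GenPos K F g Yb S) :
    riemannRochSpace (G.Bb - G.E0 - G.R0) = Submodule.span K {G.s0} := by
  refine rr_eq_span_of_ell_one hF G.s0_ne (E := G.E0) (fun v => ?_) G.E0_nonneg G.ell_Qb
  have := G.ord_s0_add v
  rw [Finsupp.add_apply, Finsupp.smul_apply, smul_eq_mul] at this
  rw [Finsupp.sub_apply, Finsupp.sub_apply]
  linarith

end GenPos

/-- **existence of the generic position package** -/
theorem exists_genPos (hF : IsCurveOfGenus K F g) [Infinite K] (Yb : Divisor K F)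
    (hYb : 0 < Divisor.degree Yb) (S : Finset (Place K F)) :
    Nonempty (GenPos K F g Yb S) := by
  classical
  obtain ⟨Q, hQinj, hQS, hQ⟩ := exists_nonspecial hF S g le_rfl
  obtain ⟨R, hRinj, hRS, hR⟩ := exists_nonspecial hF (S ∪ Finset.univ.image Q) g le_rfl
  have hRS' : ∀ j, R j ∉ S := fun j h => hRS j (Finset.mem_union_left _ h)
  have hQR : ∀ i j, Q i ≠ R j := fun i j h =>
    hRS j (Finset.mem_union_right _ (Finset.mem_image.2 ⟨i, Finset.mem_univ i, h⟩))
  -- the multiple of the frame divisor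
  obtain ⟨n, hn⟩ : ∃ n : ℕ, 5 * (g : ℤ) ≤ n * Divisor.degree Yb := by
    refine ⟨5 * g, ?_⟩
    push_cast
    nlinarith
  set M : Divisor K F := (n : ℤ) • Yb - ((2 : ℤ) • ∑ i, pt (Q i) + ∑ j, pt (R j)) with hMdef
  have hdegM : 2 * (g : ℤ) ≤ Divisor.degree M := by
    rw [hMdef, map_sub, map_add, map_zsmul, map_zsmul, degree_sum_pt_fin hF,
      degree_sum_pt_fin hF, Fintype.card_fin, smul_eq_mul, smul_eq_mul]
    linarith
  obtain ⟨f, C, hf0, hC0, hCS, hCf⟩ := exists_effective_avoiding hF hdegM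
    (S ∪ Finset.univ.image Q ∪ Finset.univ.image R)
  refine ⟨{ Qb := Q, Rb := R, Qb_inj := hQinj, Rb_inj := hRinj, Qb_ne_Rb := hQR,
            Qb_notMem := hQS, Rb_notMem := hRS', ell_Qb := hQ, ell_Rb := hR, n := n, Cb := C,
            Cb_nonneg := hC0, Cb_Qb := fun i => hCS _ ?_, Cb_Rb := fun j => hCS _ ?_,
            Cb_S := fun P hP => hCS P ?_, s0 := f, s0_ne := hf0, ord_s0 := fun v => ?_ }⟩
  · exact Finset.mem_union_left _ (Finset.mem_union_right _
      (Finset.mem_image.2 ⟨i, Finset.mem_univ i, rfl⟩))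
  · exact Finset.mem_union_right _ (Finset.mem_image.2 ⟨j, Finset.mem_univ j, rfl⟩)
  · exact Finset.mem_union_left _ (Finset.mem_union_left _ hP)
  · have := hCf v
    rw [hMdef, Finsupp.sub_apply] at this
    rw [Finsupp.sub_apply, this]
    ring

end Fermat.Agent.S19lib.B
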