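/-
S19lib / B / RedRR  (helper6, Project FF, block FF-B, part 4: reduction of Riemann–Roch spaces).

ABSTRACT over a reduction datum `D : RedDatum A F Fk` with orthonormal bases, both function fields
curves of the same genus `g` (weak Riemann form `IsCurveOfGenus`).

* `redSub_rr_le` : `red (L(E) ∩ O) ≤ L_k(r_* E)` (any divisor `E`);
* `ell_le_ell_mapDomain` : **upper semicontinuity** `ℓ(E) ≤ ℓ(r_* E)`;
* `redSub_rr_eq` : `red (L(E) ∩ O) = L_k(r_* E)` when `deg E > 2g - 2`;
* `exists_lift_of_mem_rr` : every `φ ∈ L_k(r_* E)` lifts to `L(E) ∩ O` (`deg E > 2g - 2`);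
* `exists_orthonormal_basis_rr` : an orthonormal basis of `L(E)` whose reductions form a basis of
  `L_k(r_* E)`;
* `exists_pos_of_mapDomain_pos`, `existsUnique_pos_of_mapDomain_eq_one` : combinatorics of fibres;
* `exists_zero_over`, `r_surjective` : zeros of `red f` lift; the place map is onto;
* `existsUnique_zero_of_ord_eq_one` : a function of `O` without poles in the residue disc of `Q̄`
  whose reduction has a simple zero at `Q̄` has exactly one zero in the disc, and it is simple.
-/
import Mathlib
import Fermat.Agent.S19lib.B.Special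
import Fermat.Agent.S18lib.Setup.DatumDiv
import Fermat.Agent.S18lib.Setup.DatumFibre
import Fermat.Agent.S37lib.Red.RedSub

set_option autoImplicit false
set_option linter.unusedSectionVars false

noncomputable section

namespace Fermat.Agent.S19lib.B

open AlgebraicCurve Module
open Fermat.Agent.S18lib Fermat.Agent.S37lib Fermat.Agent.S37lib.B2

/-! ### combinatorics of push-forwards -/

/-- a positive coefficient of a push-forward comes from a positive coefficient -/
theorem exists_pos_of_mapDomain_pos {ι κ : Type*} (r : ι → κ) {E : ι →₀ ℤ} {Q : κ}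
    (h : 0 < Finsupp.mapDomain r E Q) : ∃ P, r P = Q ∧ 0 < E P := by
  classical
  rw [mapDomain_apply_eq_sum] at h
  by_contra hno
  push Not at hno
  have : ∑ P ∈ E.support, (if r P = Q then E P else 0) ≤ 0 :=
    Finset.sum_nonpos fun P _ => by
      split_ifs with hP
      · exact hno P hP
      · exact le_rfl
  omega

/-- if the fibre over `Q` carries only non-negative coefficients with sum `1`, exactly one
coefficient is positive, and it equals `1` -/
theorem existsUnique_pos_of_mapDomain_eq_one {ι κ : Type*} (r : ι → κ) {E : ι →₀ ℤ} {Q : κ}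
    (hnn : ∀ P, r P = Q → 0 ≤ E P) (h : Finsupp.mapDomain r E Q = 1) :
    ∃ P, (r P = Q ∧ E P = 1) ∧ ∀ P', r P' = Q → 0 < E P' → P' = P := by
  classical
  obtain ⟨P, hP, hEP⟩ := exists_pos_of_mapDomain_pos r (E := E) (Q := Q) (by rw [h]; exact one_pos)
  rw [mapDomain_apply_eq_sum] at h
  have hnn' : ∀ P' ∈ E.support, 0 ≤ (if r P' = Q then E P' else 0) := fun P' _ => by
    split_ifs with h'
    · exact hnn P' h'
    · exact le_rfl
  have hPs : P ∈ E.support := Finsupp.mem_support_iff.2 (ne_of_gt hEP)
  have huniq : ∀ P', r P' = Q → 0 < E P' → P' = P := by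
    intro P' hP' hEP'
    by_contra hne
    have hP's : P' ∈ E.support := Finsupp.mem_support_iff.2 (ne_of_gt hEP')
    have hsub : ({P, P'} : Finset ι) ⊆ E.support := by
      intro x hx
      rcases Finset.mem_insert.1 hx with rfl | hx
      · exact hPs
      · rw [Finset.mem_singleton] at hx; rw [hx]; exact hP's
    have h2 := Finset.sum_le_sum_of_subset_of_nonneg hsub
      (f := fun P'' => if r P'' = Q then E P'' else 0) (fun x hx _ => hnn' x hx)
    rw [Finset.sum_pair (Ne.symm hne), if_pos hP, if_pos hP', h] at h2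
    omega
  refine ⟨P, ⟨hP, ?_⟩, huniq⟩
  have h1 : (if r P = Q then E P else 0) ≤ ∑ P' ∈ E.support, (if r P' = Q then E P' else 0) :=
    Finset.single_le_sum hnn' hPs
  rw [if_pos hP, h] at h1
  omega

variable {L : Type*} [Field L] {A : ValuationSubring L}
variable {F : Type*} [Field F] [Algebra L F]
variable {Fk : Type*} [Field Fk] [Algebra (IsLocalRing.ResidueField A) Fk]
variable {g : ℕ}

local notation "k" => IsLocalRing.ResidueField A

section Red

variable (D : RedDatum A F Fk)

/-- `red (L(E) ∩ O) ≤ L_k(r_* E)` -/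
theorem redSub_rr_le [HasPrincipalDivisors L F] [HasPrincipalDivisors k Fk] (E : Divisor L F) :
    redSub D.toGaussDatum (riemannRochSpace E) ≤ riemannRochSpace (Finsupp.mapDomain D.r E) := by
  rintro _ ⟨f, hfE, hfO, rfl⟩
  exact D.redF_mem_riemannRochSpace hfE hfO

variable (hO : D.HasOrthonormalBases) (hF : IsCurveOfGenus L F g)
  (hFk : IsCurveOfGenus (IsLocalRing.ResidueField A) Fk g)
include hO hF hFk

/-- **upper semicontinuity** of `ℓ` under reduction -/
theorem ell_le_ell_mapDomain (E : Divisor L F) : ell E ≤ ell (Finsupp.mapDomain D.r E) := by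
  have := hF.hasPrincipalDivisors
  have := hFk.hasPrincipalDivisors
  have := hF.finiteDimensional E
  have := hFk.finiteDimensional (Finsupp.mapDomain D.r E)
  have hO' : D.toGaussDatum.HasOrthonormalBases := hO
  rw [ell_def, ← finrank_redSub hO' (riemannRochSpace E)]
  exact Submodule.finrank_mono (redSub_rr_le D E)

/-- `red (L(E) ∩ O) = L_k(r_* E)` in large degree -/
theorem redSub_rr_eq {E : Divisor L F} (hE : 2 * (g : ℤ) - 2 < Divisor.degree E) :
    redSub D.toGaussDatum (riemannRochSpace E) = riemannRochSpace (Finsupp.mapDomain D.r E) := by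
  have := hF.hasPrincipalDivisors
  have := hFk.hasPrincipalDivisors
  have := hF.finiteDimensional E
  have := hFk.finiteDimensional (Finsupp.mapDomain D.r E)
  have hO' : D.toGaussDatum.HasOrthonormalBases := hO
  apply Submodule.eq_of_le_of_finrank_eq (redSub_rr_le D E)
  have h1 := hF.riemann_eq E hE
  have h2 := hFk.riemann_eq (Finsupp.mapDomain D.r E) (by rw [D.degree_mapDomain]; exact hE)
  rw [D.degree_mapDomain] at h2
  rw [finrank_redSub hO' (riemannRochSpace E)]
  omega

/-- lifting sections in large degree -/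
theorem exists_lift_of_mem_rr {E : Divisor L F} (hE : 2 * (g : ℤ) - 2 < Divisor.degree E)
    {φ : Fk} (hφ : φ ∈ riemannRochSpace (Finsupp.mapDomain D.r E)) :
    ∃ f ∈ riemannRochSpace E, f ∈ D.O ∧ D.redF f = φ := by
  rw [← redSub_rr_eq D hO hF hFk hE] at hφ
  exact hφ

/-- **orthonormal bases of Riemann–Roch spaces**: a basis of `L(E)` inside `O` whose reductions
form a basis of `L_k(r_* E)` -/
theorem exists_orthonormal_basis_rr {E : Divisor L F}
    (hE : 2 * (g : ℤ) - 2 < Divisor.degree E) :
    ∃ e : Fin (finrank L (riemannRochSpace E)) → F,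
      (∀ i, e i ∈ riemannRochSpace E) ∧ D.IsOrthonormal e ∧
      Submodule.span L (Set.range e) = riemannRochSpace E ∧
      Submodule.span k (Set.range fun i => D.redF (e i)) =
        riemannRochSpace (Finsupp.mapDomain D.r E) := by
  have := hF.hasPrincipalDivisors
  have := hFk.hasPrincipalDivisors
  have hfd := hF.finiteDimensional E
  have := hFk.finiteDimensional (Finsupp.mapDomain D.r E)
  obtain ⟨b, hbW, hb⟩ := hO (riemannRochSpace E) hfd
  have hb' : D.toGaussDatum.IsOrthonormal b := hb
  have hli : LinearIndependent L b := hb'.linearIndependent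
  refine ⟨b, hbW, hb, ?_, ?_⟩
  · apply Submodule.eq_of_le_of_finrank_eq
    · rw [Submodule.span_le]
      rintro _ ⟨i, rfl⟩
      exact hbW i
    · rw [finrank_span_eq_card hli, Fintype.card_fin]
  · apply Submodule.eq_of_le_of_finrank_eq
    · rw [Submodule.span_le]
      rintro _ ⟨i, rfl⟩
      exact D.redF_mem_riemannRochSpace (hbW i) (hb.1 i)
    · rw [finrank_span_eq_card hb.2, Fintype.card_fin]
      have h1 := hF.riemann_eq E hE
      have h2 := hFk.riemann_eq (Finsupp.mapDomain D.r E) (by rw [D.degree_mapDomain]; exact hE)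
      rw [D.degree_mapDomain] at h2
      omega

omit hO in
/-- a zero of the reduction lifts to a zero -/
theorem exists_zero_over {f : F} (hf : D.redF f ≠ 0) {Qb : Place k Fk}
    (hQ : 0 < Qb.ord (D.redF f)) : ∃ P : Place L F, D.r P = Qb ∧ 0 < P.ord f := by
  have := hF.hasPrincipalDivisors
  have := hFk.hasPrincipalDivisors
  have h1 : 0 < Finsupp.mapDomain D.r (divOf (K := L) f) Qb := by
    rw [D.mapDomain_divOf hf, divOf_apply']; exact hQ
  obtain ⟨P, hP, hPpos⟩ := exists_pos_of_mapDomain_pos D.r h1
  rw [divOf_apply'] at hPpos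
  exact ⟨P, hP, hPpos⟩

omit hO in
/-- **the place map is onto** -/
theorem r_surjective : Function.Surjective D.r := by
  classical
  intro Qb
  have := hFk.infinite_places
  obtain ⟨Q', hQ'⟩ := (Set.finite_singleton Qb).exists_notMem
  have hne : Q' ≠ Qb := hQ'
  set M : Divisor k Fk := (2 * (g : ℤ) + 1) • pt Q' - pt Qb with hM
  have hdeg : 2 * (g : ℤ) ≤ Divisor.degree M := by
    rw [hM, map_sub, map_zsmul, Curve.degree_single_one hFk, Curve.degree_single_one hFk,
      smul_eq_mul]
    linarith
  obtain ⟨s, -, hs0, hs⟩ := Curve.exists_ord_eq_neg hFk hdeg Qb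
  have hMQ : M Qb = -1 := by
    rw [hM, Finsupp.sub_apply, Finsupp.smul_apply, Finsupp.single_apply, if_neg hne,
      Finsupp.single_apply, if_pos rfl]
    simp
  rw [hMQ, neg_neg] at hs
  obtain ⟨f, hf⟩ := D.red_surjective s
  have hfred : D.redF (f : F) = s := by rw [D.redF_of_mem f.2]; exact hf
  obtain ⟨P, hP, -⟩ := exists_zero_over D hF hFk (f := (f : F)) (by rw [hfred]; exact hs0)
    (Qb := Qb) (by rw [hfred, hs]; exact one_pos)
  exact ⟨P, hP⟩

omit hO in
/-- **unique simple zero in a residue disc** -/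
theorem existsUnique_zero_of_ord_eq_one {t : F} {Qb : Place k Fk}
    (h1 : Qb.ord (D.redF t) = 1) (hnp : ∀ P : Place L F, D.r P = Qb → 0 ≤ P.ord t) :
    ∃ P : Place L F, (D.r P = Qb ∧ P.ord t = 1) ∧
      ∀ P' : Place L F, D.r P' = Qb → 0 < P'.ord t → P' = P := by
  have := hF.hasPrincipalDivisors
  have := hFk.hasPrincipalDivisors
  have ht : D.redF t ≠ 0 := by
    intro h0
    rw [h0, Place.ord_zero] at h1
    exact zero_ne_one h1
  have h2 : Finsupp.mapDomain D.r (divOf (K := L) t) Qb = 1 := by
    rw [D.mapDomain_divOf ht, divOf_apply']; exact h1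
  obtain ⟨P, ⟨hP, hPord⟩, huniq⟩ := existsUnique_pos_of_mapDomain_eq_one D.r
    (fun P hP => by rw [divOf_apply']; exact hnp P hP) h2
  rw [divOf_apply'] at hPord
  refine ⟨P, ⟨hP, hPord⟩, fun P' hP' hpos => huniq P' hP' ?_⟩
  rw [divOf_apply']; exact hpos

end Red

end Fermat.Agent.S19lib.B
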