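/-
S19lib / B / Kernel  (helper6, Project FF, block FF-B, part 5).

Rigidity of non-special effective divisors and the description of the kernel of reduction
(divisor level; `D : RedDatum A F Fk` with orthonormal bases, both sides of genus `g`).

* `eq_of_principal_of_ell_eq_one` : (e) `E ≥ 0`, `ℓ(E) = 1`, `E' ≥ 0`, `E' ∼ E` ⇒ `E' = E`;
* `ell_pos_of_nonneg` : `ℓ(E) ≥ 1` for `E ≥ 0`;
* `ell_eq_one_of_mapDomain` : `E ≥ 0`, `ℓ(r_* E) = 1` ⇒ `ℓ(E) = 1` (semicontinuity);
* `eq_of_principal_of_mapDomain` : (f, uniqueness) `E', E'' ≥ 0`, `E'' ∼ E'`, `ℓ(r_* E') = 1`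
  ⇒ `E'' = E'`;
* `exists_effective_of_mapDomain_principal` : (f, existence) `E ≥ 0` of degree `g` with
  `ℓ(r_* E) = 1`, `X` of degree `0` with `r_* X` principal ⇒ there is `E' ≥ 0` with
  `E' - E - X` principal and `r_* E' = r_* E`;
* `exists_points_of_mapDomain_eq_sum_pt` : for distinct `Q̄ i`, an effective `E'` with
  `r_* E' = ∑ i, Q̄ i` is `∑ i, P i` with `r (P i) = Q̄ i` ("`ker(red) ≅ ∏ Disc(Q̄ i)`").
-/
import Mathlib
import Fermat.Agent.S19lib.B.RedRR
import Fermat.Agent.S19lib.B.Avoid

set_option autoImplicit false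
set_option linter.unusedSectionVars false

noncomputable section

namespace Fermat.Agent.S19lib.B

open AlgebraicCurve Module
open Fermat.Agent.S18lib Fermat.Agent.S18lib.Cech Fermat.Agent.S37lib Fermat.Agent.S37lib.B2

section OneCurve

variable {K F : Type*} [Field K] [Field F] [Algebra K F] {g : ℕ}
variable (hF : IsCurveOfGenus K F g)
include hF

/-- `ℓ(E) ≥ 1` for an effective divisor -/
theorem ell_pos_of_nonneg {E : Divisor K F} (hE : 0 ≤ E) : 1 ≤ ell E := by
  have := hF.finiteDimensional E
  have h1 : (1 : F) ∈ riemannRochSpace E := one_mem_rr fun v => Finsupp.le_def.1 hE v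
  have : 0 < finrank K (riemannRochSpace E) :=
    Module.finrank_pos_iff_exists_ne_zero.2 ⟨⟨1, h1⟩, fun h => one_ne_zero (congrArg Subtype.val h)⟩
  exact this

/-- **(e)** a non-special effective divisor is alone in its linear system -/
theorem eq_of_principal_of_ell_eq_one {E E' : Divisor K F} (hE : 0 ≤ E) (hell : ell E = 1)
    (hE' : 0 ≤ E') (h : E' - E ∈ Divisor.principal (K := K) (F := F)) : E' = E := by
  obtain ⟨f, hf0, hf⟩ := h
  -- `f ∈ L(E)`, hence constant
  have hfE : f ∈ riemannRochSpace E := by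
    rw [mem_rr_of_ne hf0]
    intro v
    have h1 := hf v
    rw [Finsupp.sub_apply] at h1
    have h2 := Finsupp.le_def.1 hE' v
    rw [Finsupp.zero_apply] at h2
    linarith
  rw [rr_eq_span_one hF hE hell, Submodule.mem_span_singleton] at hfE
  obtain ⟨c, hc⟩ := hfE
  have hc0 : c ≠ 0 := by
    rintro rfl
    rw [zero_smul] at hc
    exact hf0 hc.symm
  ext v
  have h1 := hf v
  rw [Finsupp.sub_apply, ← hc, Algebra.smul_def, mul_one, ord_algebraMap_eq_zero v hc0] at h1
  linarith

end OneCurve

variable {L : Type*} [Field L] {A : ValuationSubring L}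
variable {F : Type*} [Field F] [Algebra L F]
variable {Fk : Type*} [Field Fk] [Algebra (IsLocalRing.ResidueField A) Fk]
variable {g : ℕ}

local notation "k" => IsLocalRing.ResidueField A

section Red

variable (D : RedDatum A F Fk)
variable (hO : D.HasOrthonormalBases) (hF : IsCurveOfGenus L F g)
  (hFk : IsCurveOfGenus (IsLocalRing.ResidueField A) Fk g)
include hO hF hFk

/-- semicontinuity for effective divisors with non-special reduction -/
theorem ell_eq_one_of_mapDomain {E : Divisor L F} (hE : 0 ≤ E)
    (hell : ell (Finsupp.mapDomain D.r E) = 1) : ell E = 1 := by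
  have h1 := ell_le_ell_mapDomain D hO hF hFk E
  have h2 := ell_pos_of_nonneg hF hE
  omega

/-- **(f), uniqueness** -/
theorem eq_of_principal_of_mapDomain {E' E'' : Divisor L F} (hE' : 0 ≤ E')
    (hell : ell (Finsupp.mapDomain D.r E') = 1) (hE'' : 0 ≤ E'')
    (h : E'' - E' ∈ Divisor.principal (K := L) (F := F)) : E'' = E' :=
  eq_of_principal_of_ell_eq_one hF hE' (ell_eq_one_of_mapDomain D hO hF hFk hE' hell) hE'' h

/-- **(f), existence**: the classes with trivial reduction are represented in the residue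
polydisc of a non-special effective divisor of degree `g` -/
theorem exists_effective_of_mapDomain_principal {E : Divisor L F} (hE : 0 ≤ E)
    (hdeg : Divisor.degree E = g) (hell : ell (Finsupp.mapDomain D.r E) = 1)
    {X : Divisor L F} (hX : Divisor.degree X = 0)
    (hXr : Finsupp.mapDomain D.r X ∈ Divisor.principal (K := k) (F := Fk)) :
    ∃ E' : Divisor L F, 0 ≤ E' ∧ E' - E - X ∈ Divisor.principal (K := L) (F := F) ∧
      Finsupp.mapDomain D.r E' = Finsupp.mapDomain D.r E := by
  have := hF.hasPrincipalDivisors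
  have := hFk.hasPrincipalDivisors
  have hfd := hF.finiteDimensional (E + X)
  -- a nonzero section of `L(E + X)`
  have hpos : 0 < finrank L (riemannRochSpace (E + X)) := by
    have := hF.riemann_le (E + X)
    rw [map_add, hdeg, hX] at this
    omega
  obtain ⟨⟨f, hfM⟩, hf0'⟩ := (Module.finrank_pos_iff_exists_ne_zero
    (R := L) (M := riemannRochSpace (E + X))).1 hpos
  have hf0 : f ≠ 0 := fun h => hf0' (Subtype.ext h)
  have hE'0 : 0 ≤ divOf (K := L) f + (E + X) :=
    ((mem_riemannRochSpace_iff_divOf (K := L)).1 hfM).resolve_left hf0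
  refine ⟨divOf (K := L) f + (E + X), hE'0, ?_, ?_⟩
  · have : divOf (K := L) f + (E + X) - E - X = divOf (K := L) f := by abel
    rw [this]
    exact divOf_mem_principal hf0
  · -- the reduction is effective and linearly equivalent to `r_* E`
    have hEb : 0 ≤ Finsupp.mapDomain D.r E := Finsupp.mapDomain_nonneg hE
    have hE'b : 0 ≤ Finsupp.mapDomain D.r (divOf (K := L) f + (E + X)) :=
      Finsupp.mapDomain_nonneg hE'0
    refine eq_of_principal_of_ell_eq_one hFk hEb hell hE'b ?_
    have h1 : Finsupp.mapDomain D.r (divOf (K := L) f + (E + X)) - Finsupp.mapDomain D.r E =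
        Finsupp.mapDomain D.r (divOf (K := L) f) + Finsupp.mapDomain D.r X := by
      rw [Finsupp.mapDomain_add, Finsupp.mapDomain_add]; abel
    rw [h1]
    exact AddSubgroup.add_mem _ (D.mapDomain_mem_principal (divOf_mem_principal hf0)) hXr

end Red

/-! ### effective divisors over a sum of distinct points -/

/-- an effective divisor whose push-forward is a sum of distinct points is a sum of points, one
over each of them -/
theorem exists_points_of_mapDomain_eq_sum_pt {ι κ : Type*} {n : ℕ} (r : ι → κ)
    {E : ι →₀ ℤ} (hE : 0 ≤ E) (Q : Fin n → κ) (hQ : Function.Injective Q)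
    (h : Finsupp.mapDomain r E = ∑ i, Finsupp.single (Q i) (1 : ℤ)) :
    ∃ P : Fin n → ι, (∀ i, r (P i) = Q i) ∧ E = ∑ i, Finsupp.single (P i) (1 : ℤ) := by
  classical
  have hval : ∀ q : κ, (∑ i, Finsupp.single (Q i) (1 : ℤ)) q = if q ∈ Set.range Q then 1 else 0 := by
    intro q
    rw [Finsupp.finsetSum_apply]
    split_ifs with hq
    · obtain ⟨i, rfl⟩ := hq
      rw [Finset.sum_eq_single i]
      · simp
      · intro j _ hji
        rw [Finsupp.single_apply, if_neg fun e => hji (hQ e)]
      · intro h; exact absurd (Finset.mem_univ i) h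
    · refine Finset.sum_eq_zero fun i _ => ?_
      rw [Finsupp.single_apply, if_neg fun e => hq ⟨i, e⟩]
  have hnn : ∀ P, 0 ≤ E P := fun P => Finsupp.le_def.1 hE P
  -- the unique point over `Q i`
  have hex : ∀ i, ∃ P, (r P = Q i ∧ E P = 1) ∧ ∀ P', r P' = Q i → 0 < E P' → P' = P := by
    intro i
    refine existsUnique_pos_of_mapDomain_eq_one r (fun P _ => hnn P) ?_
    rw [h, hval, if_pos ⟨i, rfl⟩]
  choose P hP huniq using hex
  refine ⟨P, fun i => (hP i).1, ?_⟩
  have hPinj : Function.Injective P := fun i j hij => hQ (by rw [← (hP i).1, ← (hP j).1, hij])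
  ext P'
  have hrhs : (∑ i, Finsupp.single (P i) (1 : ℤ)) P' = if P' ∈ Set.range P then 1 else 0 := by
    rw [Finsupp.finsetSum_apply]
    split_ifs with hq
    · obtain ⟨i, rfl⟩ := hq
      rw [Finset.sum_eq_single i]
      · simp
      · intro j _ hji
        rw [Finsupp.single_apply, if_neg fun e => hji (hPinj e)]
      · intro h; exact absurd (Finset.mem_univ i) h
    · refine Finset.sum_eq_zero fun i _ => ?_
      rw [Finsupp.single_apply, if_neg fun e => hq ⟨i, e⟩]
  rw [hrhs]
  split_ifs with hP'
  · obtain ⟨i, rfl⟩ := hP'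
    exact (hP i).2
  · -- `E P' = 0` otherwise
    by_contra hne
    have hpos : 0 < E P' := lt_of_le_of_ne (hnn P') (Ne.symm hne)
    have h1 := le_mapDomain_apply r hE P'
    rw [h, hval] at h1
    split_ifs at h1 with hq
    · obtain ⟨i, hi⟩ := hq
      exact hP' ⟨i, (huniq i P' hi.symm hpos).symm⟩
    · omega

end Fermat.Agent.S19lib.B
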