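/-
S19lib / B / Lift  (helper6, Project FF, block FF-B, part 6: fixed lifts).

ABSTRACT over `D : RedDatum A F Fk`, `S : Geom.SymData D G` with `S.HasFixedLifts`, both sides
curves of genus `g`, and one *frame*: an `I`-stable effective divisor of positive degree.

* `FixD` calculus (`fixD_zero`, `fixD_add/neg/sub/zsmul/sum`, `fixD_single`, `fixD_divOf`);
* `LiftCtx D S g` : the standing hypotheses; `Frame S`;
* `exists_frame_avoiding` : a frame whose reduction avoids a given finite set of places;
* `exists_fixed_param` : for `Q̄` outside the reduction of a frame, a fixed disc-regular function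
  whose reduction has a simple zero at `Q̄`;
* `fixedLiftPlaceStmt` : **(Y0)** every place of the residue curve has a fixed lift;
* `exists_chart_at` : a fixed chart centred at a given fixed place;
* `existsFamStmt` : **(Y)** admissible chart families exist away from any finite set.
-/
import Mathlib
import Fermat.Agent.S19lib.B.RedRR
import Fermat.Agent.S19lib.B.Avoid
import Fermat.Agent.S19lib.Geom.Family

set_option autoImplicit false
set_option linter.unusedSectionVars false

noncomputable section

namespace Fermat.Agent.S19lib.B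

open AlgebraicCurve Module
open Fermat.Agent.S18lib Fermat.Agent.S37lib
open Fermat.Agent.S19lib.C Fermat.Agent.S19lib.Geom

variable {L : Type*} [Field L] {A : ValuationSubring L}
variable {F : Type*} [Field F] [Algebra L F]
variable {Fk : Type*} [Field Fk] [Algebra (IsLocalRing.ResidueField A) Fk]
variable {D : RedDatum A F Fk} {G : Type*} [Group G]

local notation "k" => IsLocalRing.ResidueField A

/-! ### stable divisors -/

section FixD

variable (S : SymData D G)

theorem fixD_zero : S.FixD 0 := fun _ _ => smul_zero _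

theorem fixD_add {E E' : Divisor L F} (h : S.FixD E) (h' : S.FixD E') : S.FixD (E + E') :=
  fun g hg => by rw [smul_add, h g hg, h' g hg]

theorem fixD_neg {E : Divisor L F} (h : S.FixD E) : S.FixD (-E) :=
  fun g hg => by rw [smul_neg, h g hg]

theorem fixD_sub {E E' : Divisor L F} (h : S.FixD E) (h' : S.FixD E') : S.FixD (E - E') :=
  fun g hg => by rw [smul_sub, h g hg, h' g hg]

theorem fixD_zsmul {E : Divisor L F} (h : S.FixD E) (n : ℤ) : S.FixD (n • E) := fun g hg => by
  have := map_zsmul (DistribSMul.toAddMonoidHom (Divisor L F) (S.ρ g)) n E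
  rw [DistribSMul.toAddMonoidHom_apply, DistribSMul.toAddMonoidHom_apply] at this
  rw [this, h g hg]

theorem fixD_sum {ι : Type*} (s : Finset ι) (E : ι → Divisor L F) (h : ∀ i ∈ s, S.FixD (E i)) :
    S.FixD (∑ i ∈ s, E i) := fun g hg => by
  rw [Finset.smul_sum]
  exact Finset.sum_congr rfl fun i hi => h i hi g hg

theorem fixD_single {P : Place L F} (hP : S.FixP P) (n : ℤ) : S.FixD (Finsupp.single P n) :=
  fun g hg => by rw [SemilinearAut.smul_single, hP g hg]

/-- the divisor of a fixed function is stable -/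
theorem fixD_divOf [HasPrincipalDivisors L F] {f : F} (hf : S.FixF f) :
    S.FixD (divOf (K := L) f) := fun g hg => by
  ext P
  rw [SemilinearAut.divisor_smul_apply, divOf_apply', divOf_apply']
  have h1 := SemilinearAut.ord_smul (S.ρ g) ((S.ρ g)⁻¹ • P) f
  rw [smul_inv_smul, hf g hg] at h1
  exact h1.symm

end FixD

/-! ### frames -/

/-- a frame: an `I`-stable effective divisor of positive degree -/
structure Frame (S : SymData D G) where
  /-- the divisor -/
  Y : Divisor L F
  nonneg : 0 ≤ Y
  deg_pos : 0 < Divisor.degree Y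
  fixD : S.FixD Y

/-- the standing hypotheses of the lifting block -/
structure LiftCtx (D : RedDatum A F Fk) (S : SymData D G) (g : ℕ) : Prop where
  orth : D.HasOrthonormalBases
  curve : IsCurveOfGenus L F g
  curvek : IsCurveOfGenus (IsLocalRing.ResidueField A) Fk g
  infinite_k : Infinite (IsLocalRing.ResidueField A)
  lifts : S.HasFixedLifts
  frame : Nonempty (Frame S)

/-- an effective divisor vanishes at the places over a place where its push-forward vanishes -/
theorem apply_eq_zero_of_mapDomain_eq_zero {ι κ : Type*} (r : ι → κ) {E : ι →₀ ℤ} (hE : 0 ≤ E)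
    {P : ι} (h : Finsupp.mapDomain r E (r P) = 0) : E P = 0 := by
  have h1 := le_mapDomain_apply r hE P
  have h2 := Finsupp.le_def.1 hE P
  rw [Finsupp.zero_apply] at h2
  omega

section Lift

variable {S : SymData D G} {g : ℕ} (C : LiftCtx D S g)
include C

/-- lifting a section of `L_k(r_* E)` to a FIXED element of `L(E) ∩ O`, `E` stable of large
degree -/
theorem LiftCtx.exists_fixed_lift {E : Divisor L F} (hE : S.FixD E)
    (hdeg : 2 * (g : ℤ) - 2 < Divisor.degree E) {φ : Fk}
    (hφ : φ ∈ riemannRochSpace (Finsupp.mapDomain D.r E)) :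
    ∃ f ∈ riemannRochSpace E, f ∈ D.O ∧ S.FixF f ∧ D.redF f = φ := by
  obtain ⟨f, hfE, hfO, hfred⟩ := exists_lift_of_mem_rr D C.orth C.curve C.curvek hdeg hφ
  obtain ⟨f', hf'E, hf'O, hf'fix, hf'red⟩ := C.lifts E hE f hfE hfO
  exact ⟨f', hf'E, hf'O, hf'fix, hf'red.trans hfred⟩

/-- **frames away from a finite set** -/
theorem exists_frame_avoiding (T : Finset (Place k Fk)) :
    ∃ Y : Frame S, ∀ Q ∈ T, Finsupp.mapDomain D.r Y.Y Q = 0 := by
  have := C.curve.hasPrincipalDivisors
  have := C.curvek.hasPrincipalDivisors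
  have := C.infinite_k
  obtain ⟨Y₀⟩ := C.frame
  set m : ℕ := 2 * g + 1 with hm
  have hdeg1 : (1 : ℤ) ≤ Divisor.degree Y₀.Y := Y₀.deg_pos
  have hmdeg : 2 * (g : ℤ) + 1 ≤ Divisor.degree ((m : ℤ) • Y₀.Y) := by
    rw [map_zsmul, smul_eq_mul, hm]
    push_cast
    nlinarith
  have hmap : Finsupp.mapDomain D.r ((m : ℤ) • Y₀.Y) = (m : ℤ) • Finsupp.mapDomain D.r Y₀.Y :=
    Finsupp.mapDomain_smul _ _
  obtain ⟨s, hsM, hs0, hsT⟩ := exists_section_avoiding C.curvek
    (M := Finsupp.mapDomain D.r ((m : ℤ) • Y₀.Y)) (by rw [D.degree_mapDomain]; linarith) T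
  obtain ⟨f, hfE, hfO, hffix, hfred⟩ := C.exists_fixed_lift (fixD_zsmul S Y₀.fixD m)
    (by linarith) hsM
  have hfred0 : D.redF f ≠ 0 := by rw [hfred]; exact hs0
  have hf0 : f ≠ 0 := by
    rintro rfl
    exact hfred0 D.redF_zero
  have hnn : 0 ≤ divOf (K := L) f + (m : ℤ) • Y₀.Y :=
    ((mem_riemannRochSpace_iff_divOf (K := L)).1 hfE).resolve_left hf0
  refine ⟨{ Y := divOf (K := L) f + (m : ℤ) • Y₀.Y
            nonneg := hnn
            deg_pos := by rw [map_add, degree_divOf, zero_add]; linarith
            fixD := fixD_add S (fixD_divOf S hffix) (fixD_zsmul S Y₀.fixD m) }, fun Q hQ => ?_⟩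
  show Finsupp.mapDomain D.r (divOf (K := L) f + (m : ℤ) • Y₀.Y) Q = 0
  rw [Finsupp.mapDomain_add, Finsupp.add_apply, D.mapDomain_divOf hfred0, divOf_apply', hfred,
    hsT Q hQ]
  ring

/-- **fixed parameters**: for `Q̄` outside the reduction of a frame there is a fixed function of
`O`, regular on the disc over `Q̄`, whose reduction has a simple zero at `Q̄` -/
theorem exists_fixed_param (Y : Frame S) {Qb : Place k Fk}
    (hQ : Finsupp.mapDomain D.r Y.Y Qb = 0) :
    ∃ t : F, S.FixF t ∧ DiscReg D Qb t ∧ Qb.ord (D.redF t) = 1 := by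
  classical
  have := C.curve.hasPrincipalDivisors
  have := C.curvek.hasPrincipalDivisors
  set m : ℕ := 2 * g + 1 with hm
  have hdeg1 : (1 : ℤ) ≤ Divisor.degree Y.Y := Y.deg_pos
  have hmdeg : 2 * (g : ℤ) + 1 ≤ Divisor.degree ((m : ℤ) • Y.Y) := by
    rw [map_zsmul, smul_eq_mul, hm]
    push_cast
    nlinarith
  set Eb : Divisor k Fk := Finsupp.mapDomain D.r ((m : ℤ) • Y.Y) with hEb
  have hEbQ : Eb Qb = 0 := by
    rw [hEb, Finsupp.mapDomain_smul, Finsupp.smul_apply, hQ, smul_zero]
  have hdegEb : Divisor.degree Eb = Divisor.degree ((m : ℤ) • Y.Y) := D.degree_mapDomain _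
  obtain ⟨s, hsM, hs0, hsQ⟩ := Curve.exists_ord_eq_neg C.curvek (D := Eb - pt Qb) (by
    rw [map_sub, Curve.degree_single_one C.curvek, hdegEb]; linarith) Qb
  have hsQ' : Qb.ord s = 1 := by
    rw [hsQ, Finsupp.sub_apply, hEbQ, Finsupp.single_apply, if_pos rfl]
    norm_num
  have hsEb : s ∈ riemannRochSpace Eb := by
    refine riemannRochSpace_mono (sub_le_self _ ?_) hsM
    rw [Finsupp.le_def]
    intro P
    rw [Finsupp.zero_apply, Finsupp.single_apply]
    split_ifs <;> simp
  obtain ⟨t, htE, htO, htfix, htred⟩ := C.exists_fixed_lift (fixD_zsmul S Y.fixD m) (by linarith) hsEb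
  refine ⟨t, htfix, ⟨htO, fun P hP => ?_⟩, by rw [htred]; exact hsQ'⟩
  rw [regAt_iff_ord]
  rcases eq_or_ne t 0 with rfl | ht0
  · rw [Place.ord_zero]
  have h1 := (mem_riemannRochSpace_iff.1 htE P).resolve_left ht0
  have h2 : Y.Y P = 0 := apply_eq_zero_of_mapDomain_eq_zero D.r Y.nonneg (by rw [hP]; exact hQ)
  rw [Finsupp.smul_apply, h2, smul_zero, neg_zero] at h1
  exact h1

/-- a fixed function, regular on the disc over `Q̄`, whose reduction has a simple zero at `Q̄` has
a unique zero in the disc, and this zero is a fixed place -/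
theorem exists_fixed_zero {Qb : Place k Fk} {t : F} (htfix : S.FixF t) (htreg : DiscReg D Qb t)
    (ht : Qb.ord (D.redF t) = 1) :
    ∃ P : Place L F, D.r P = Qb ∧ S.FixP P ∧ P.ord t = 1 := by
  have := C.curve.hasPrincipalDivisors
  have := C.curvek.hasPrincipalDivisors
  obtain ⟨P, ⟨hP, hord⟩, huniq⟩ := existsUnique_zero_of_ord_eq_one D C.curve C.curvek ht
    (fun P hP => regAt_iff_ord.1 (htreg.2 P hP))
  exact ⟨P, hP, S.fixP_of_unique_zero htfix hP (by rw [hord]; exact one_pos) huniq, hord⟩

/-- **(Y0)**: every place of the residue curve has a fixed lift -/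
theorem fixedLiftPlaceStmt : FixedLiftPlaceStmt D S := by
  classical
  intro Q
  obtain ⟨Y, hY⟩ := exists_frame_avoiding C {Q}
  obtain ⟨t, htfix, htreg, ht⟩ := exists_fixed_param C Y (hY Q (Finset.mem_singleton_self Q))
  obtain ⟨P, hP, hPfix, -⟩ := exists_fixed_zero C htfix htreg ht
  exact ⟨P, hP, hPfix⟩

/-- **fixed charts with a prescribed fixed centre** -/
theorem exists_chart_at {P : Place L F} (hPfix : S.FixP P) :
    ∃ c : Chart D (D.r P), c.P0 = P ∧ S.FixF c.t := by
  classical
  have := C.curve.hasPrincipalDivisors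
  have := C.curvek.hasPrincipalDivisors
  have hdegP : P.deg = 1 := C.curve.deg_eq_one P
  have hdegQ : (D.r P).deg = 1 := C.curvek.deg_eq_one _
  obtain ⟨Y, hY⟩ := exists_frame_avoiding C {D.r P}
  obtain ⟨t', htfix, htreg, ht⟩ := exists_fixed_param C Y
    (hY _ (Finset.mem_singleton_self _))
  -- `t'` is a parameter on the disc
  have hred0 : D.redF t' ≠ 0 := by
    intro h0
    rw [h0, Place.ord_zero] at ht
    exact zero_ne_one ht
  have hev0 : ev (D.r P) (D.redF t') = 0 := by
    rw [ev_eq_zero_iff hdegQ (regAt_iff_ord.2 (by rw [ht]; exact zero_le_one))]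
    exact Or.inr (by rw [ht]; exact one_pos)
  have hpar' : IsParamAt D (D.r P) t' := ⟨htreg, by rw [hev0, map_zero, sub_zero]; exact ht⟩
  -- recentre at `P`
  have hevA : ev P t' ∈ A := htreg.ev_mem rfl hdegP
  have hevR : ev P t' ∈ S.R := S.ev_mem_R hdegP (htreg.2 P rfl) hPfix htfix hevA
  set t : F := t' - algebraMap L F (ev P t') with htdef
  have htreg2 : DiscReg D (D.r P) t := hpar'.discReg_sub_ev rfl hdegP
  have htred : D.redF t = D.redF t' := by
    rw [htdef, hpar'.redF_sub_ev rfl hdegP, hev0, map_zero, sub_zero]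
  have hpar : IsParamAt D (D.r P) t :=
    ⟨htreg2, by rw [htred, hev0, map_zero, sub_zero]; exact ht⟩
  refine ⟨{ t := t, P0 := P, r_P0 := rfl, param := hpar, centred := ?_,
            deg_one := C.curve.deg_eq_one }, rfl, htfix.sub S (S.fixF_const hevR)⟩
  rw [htdef, ev_sub hdegP (htreg.2 P rfl) (regAt_const _), ev_const, sub_self]

/-- **(Y)**: admissible chart families exist away from any finite set -/
theorem existsFamStmt : ExistsFamStmt D S g := by
  classical
  intro T
  obtain ⟨Q, hQinj, hQT, hQ⟩ := exists_nonspecial C.curvek T g le_rfl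
  have hlift := fixedLiftPlaceStmt C
  choose P hP hPfix using fun i => hlift (Q i)
  choose c hc0 hcfix using fun i => exists_chart_at C (hPfix i)
  refine ⟨{ Qb := fun i => D.r (P i)
            ch := c
            inj := fun i j hij => hQinj (by rw [← hP i, ← hP j]; exact hij)
            fixT := hcfix
            fixP := fun i => by rw [hc0 i]; exact hPfix i
            nonspecial := by
              have : (fun i => D.r (P i)) = Q := funext hP
              rw [show (∑ i, pt (D.r (P i))) = ∑ i, pt (Q i) from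
                Finset.sum_congr rfl fun i _ => by rw [hP i]]
              exact hQ
            deg_one := C.curve.deg_eq_one }, fun i => ?_⟩
  show D.r (P i) ∉ T
  rw [hP i]
  exact hQT i

end Lift

end Fermat.Agent.S19lib.B
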