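/-
S19lib / B / Tri  (helper6, Project FF, block FF-B, part 8: configurations).

`TriData a b c` : the *configuration* attached to three admissible chart families with pairwise
disjoint discs: an `I`-stable divisor `Bd` (= `B`) of degree `3g`, trivial on the `3g` discs, with
`a.E + b.E + c.E - B = div s₀` (`s₀` fixed, of Gauss norm one), a fixed orthonormal basis
`e₀ … e_{2g}` of `L(B)` reducing to a basis of `L(r_* B)`, and the three one-dimensionality facts
`L(r_* B - Ē_x - Ē_y) = k · s̄₀` on the residue curve.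

This file: the structure, its rotation, and the auxiliary lifting lemmas
(`redSub_rr_eq_of_ell_le`, `LiftCtx.exists_fixed_lift_of_ell_le`,
`LiftCtx.exists_fixed_orthonormal_basis_rr`, `exists_fixed_section`).  The existence theorem is in
`B/TriExists`.
-/
import Mathlib
import Fermat.Agent.S19lib.B.Lift
import Fermat.Agent.S19lib.B.Kernel

set_option autoImplicit false
set_option linter.unusedSectionVars false

noncomputable section

namespace Fermat.Agent.S19lib.B

open AlgebraicCurve Module
open Fermat.Agent.S18lib Fermat.Agent.S37lib Fermat.Agent.S37lib.B2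
open Fermat.Agent.S19lib.C Fermat.Agent.S19lib.Geom

variable {L : Type*} [Field L] {A : ValuationSubring L}
variable {F : Type*} [Field F] [Algebra L F]
variable {Fk : Type*} [Field Fk] [Algebra (IsLocalRing.ResidueField A) Fk]
variable {D : RedDatum A F Fk} {G : Type*} [Group G]

local notation "k" => IsLocalRing.ResidueField A

/-- the reduced base divisor `Ē = ∑ i, Q̄ i` of a family -/
def Fam.Eb {S : SymData D G} {g : ℕ} (a : Fam D S g) : Divisor k Fk := ∑ i, pt (a.Qb i)

/-- **configurations** -/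
structure TriData {S : SymData D G} {g : ℕ} (a b c : Fam D S g) where
  /-- the divisor `B = n Y - C` -/
  Bd : Divisor L F
  B_fix : S.FixD Bd
  B_disc_a : ∀ (P : Place L F) (i : Fin g), D.r P = a.Qb i → Bd P = 0
  B_disc_b : ∀ (P : Place L F) (i : Fin g), D.r P = b.Qb i → Bd P = 0
  B_disc_c : ∀ (P : Place L F) (i : Fin g), D.r P = c.Qb i → Bd P = 0
  deg_B : Divisor.degree Bd = 3 * g
  /-- the section with divisor `E_a + E_b + E_c - B` -/
  s0 : F
  s0_mem : s0 ∈ D.O
  s0_fix : S.FixF s0
  red_s0_ne : D.redF s0 ≠ 0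
  ord_s0 : ∀ P : Place L F, P.ord s0 + Bd P = (a.E + b.E + c.E) P
  /-- the fixed orthonormal basis of `L(B)` -/
  e : Fin (2 * g + 1) → F
  e_mem : ∀ j, e j ∈ riemannRochSpace Bd
  e_orth : D.IsOrthonormal e
  e_fix : ∀ j, S.FixF (e j)
  e_span : Submodule.span L (Set.range e) = riemannRochSpace Bd
  eb_span : Submodule.span (IsLocalRing.ResidueField A) (Set.range fun j => D.redF (e j)) =
    riemannRochSpace (Finsupp.mapDomain D.r Bd)
  rr_ab : riemannRochSpace (Finsupp.mapDomain D.r Bd - Fam.Eb a - Fam.Eb b) =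
    Submodule.span (IsLocalRing.ResidueField A) {D.redF s0}
  rr_bc : riemannRochSpace (Finsupp.mapDomain D.r Bd - Fam.Eb b - Fam.Eb c) =
    Submodule.span (IsLocalRing.ResidueField A) {D.redF s0}
  rr_ca : riemannRochSpace (Finsupp.mapDomain D.r Bd - Fam.Eb c - Fam.Eb a) =
    Submodule.span (IsLocalRing.ResidueField A) {D.redF s0}

namespace TriData

variable {S : SymData D G} {g : ℕ} {a b c : Fam D S g}

/-- cyclic rotation of a configuration -/
def rotate (T : TriData a b c) : TriData b c a where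
  Bd := T.Bd
  B_fix := T.B_fix
  B_disc_a := T.B_disc_b
  B_disc_b := T.B_disc_c
  B_disc_c := T.B_disc_a
  deg_B := T.deg_B
  s0 := T.s0
  s0_mem := T.s0_mem
  s0_fix := T.s0_fix
  red_s0_ne := T.red_s0_ne
  ord_s0 := fun P => by
    rw [T.ord_s0 P]
    simp only [Finsupp.add_apply]
    ring
  e := T.e
  e_mem := T.e_mem
  e_orth := T.e_orth
  e_fix := T.e_fix
  e_span := T.e_span
  eb_span := T.eb_span
  rr_ab := T.rr_bc
  rr_bc := T.rr_ca
  rr_ca := T.rr_ab

theorem s0_ne (T : TriData a b c) : T.s0 ≠ 0 := by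
  intro h
  exact T.red_s0_ne (by rw [h]; exact D.redF_zero)

/-- `E_a + E_b + E_c - B` is principal -/
theorem principal (T : TriData a b c) :
    a.E + b.E + c.E - T.Bd ∈ Divisor.principal (K := L) (F := F) :=
  ⟨T.s0, T.s0_ne, fun P => by
    rw [Finsupp.sub_apply, ← T.ord_s0 P]; ring⟩

end TriData

/-! ### lifting lemmas -/

section Red

variable (hO : D.HasOrthonormalBases) {g : ℕ} (hF : IsCurveOfGenus L F g)
  (hFk : IsCurveOfGenus (IsLocalRing.ResidueField A) Fk g)
include hO hF hFk

/-- `red (L(E) ∩ O) = L_k(r_* E)` as soon as `ℓ(r_* E) ≤ ℓ(E)` -/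
theorem redSub_rr_eq_of_ell_le {E : Divisor L F} (h : ell (Finsupp.mapDomain D.r E) ≤ ell E) :
    redSub D.toGaussDatum (riemannRochSpace E) = riemannRochSpace (Finsupp.mapDomain D.r E) := by
  have := hF.hasPrincipalDivisors
  have := hFk.hasPrincipalDivisors
  have := hF.finiteDimensional E
  have := hFk.finiteDimensional (Finsupp.mapDomain D.r E)
  have hO' : D.toGaussDatum.HasOrthonormalBases := hO
  apply Submodule.eq_of_le_of_finrank_eq (redSub_rr_le D E)
  rw [finrank_redSub hO' (riemannRochSpace E)]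
  have h1 := ell_le_ell_mapDomain D hO hF hFk E
  rw [ell_def] at h h1
  rw [ell_def] at h h1
  omega

end Red

section Lift

variable {S : SymData D G} {g : ℕ} (C : LiftCtx D S g)
include C

/-- fixed lifts when `ℓ(r_* E) ≤ ℓ(E)` -/
theorem LiftCtx.exists_fixed_lift_of_ell_le {E : Divisor L F} (hE : S.FixD E)
    (h : ell (Finsupp.mapDomain D.r E) ≤ ell E) {φ : Fk}
    (hφ : φ ∈ riemannRochSpace (Finsupp.mapDomain D.r E)) :
    ∃ f ∈ riemannRochSpace E, f ∈ D.O ∧ S.FixF f ∧ D.redF f = φ := by
  rw [← redSub_rr_eq_of_ell_le C.orth C.curve C.curvek h] at hφ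
  obtain ⟨f, hfE, hfO, hfred⟩ := hφ
  obtain ⟨f', hf'E, hf'O, hf'fix, hf'red⟩ := C.lifts E hE f hfE hfO
  exact ⟨f', hf'E, hf'O, hf'fix, hf'red.trans hfred⟩

/-- **fixed orthonormal bases of stable Riemann–Roch spaces** -/
theorem LiftCtx.exists_fixed_orthonormal_basis_rr {E : Divisor L F} (hE : S.FixD E)
    (hdeg : 2 * (g : ℤ) - 2 < Divisor.degree E) {n : ℕ}
    (hn : finrank L (riemannRochSpace E) = n) :
    ∃ e : Fin n → F, (∀ j, e j ∈ riemannRochSpace E) ∧ D.IsOrthonormal e ∧ (∀ j, S.FixF (e j)) ∧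
      Submodule.span L (Set.range e) = riemannRochSpace E ∧
      Submodule.span k (Set.range fun j => D.redF (e j)) =
        riemannRochSpace (Finsupp.mapDomain D.r E) := by
  subst hn
  have hfd := C.curve.finiteDimensional E
  obtain ⟨e₀, he₀E, he₀orth, -, he₀b⟩ :=
    exists_orthonormal_basis_rr D C.orth C.curve C.curvek hdeg
  choose e heE heO hefix hered using fun j => C.lifts E hE (e₀ j) (he₀E j) (he₀orth.1 j)
  have hfun : (fun j => D.redF (e j)) = fun j => D.redF (e₀ j) := funext hered
  have horth : D.IsOrthonormal e := ⟨heO, by rw [hfun]; exact he₀orth.2⟩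
  have horth' : D.toGaussDatum.IsOrthonormal e := horth
  refine ⟨e, heE, horth, hefix, ?_, by rw [hfun]; exact he₀b⟩
  apply Submodule.eq_of_le_of_finrank_eq
  · rw [Submodule.span_le]
    rintro _ ⟨j, rfl⟩
    exact heE j
  · rw [finrank_span_eq_card horth'.linearIndependent, Fintype.card_fin]

end Lift

end Fermat.Agent.S19lib.B
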