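/-
S19lib / B / Ker  (helper6, Project FF, block FF-B, part 7).

**(K)** `kerStmt` : for every admissible chart family `a`, the map `Θ_a : 𝔪_A^g → Pic⁰` is a
bijection from the polydisc onto the kernel of reduction `Kred D`
(`Geom.KerStmt D S g`), from the rigidity / semicontinuity results of `B/Kernel`.
-/
import Mathlib
import Fermat.Agent.S19lib.B.Kernel
import Fermat.Agent.S19lib.Geom.Family

set_option autoImplicit false
set_option linter.unusedSectionVars false

noncomputable section

namespace Fermat.Agent.S19lib.B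

open AlgebraicCurve Module
open Fermat.Agent.S18lib Fermat.Agent.S37lib
open Fermat.Agent.S19lib.C Fermat.Agent.S19lib.Geom

/-- two sums of points lying over the same distinct points coincide only if the points do -/
theorem eq_of_sum_single_eq {ι κ : Type*} {n : ℕ} (r : ι → κ) {P P' : Fin n → ι} {Q : Fin n → κ}
    (hQ : Function.Injective Q) (hP : ∀ i, r (P i) = Q i) (hP' : ∀ i, r (P' i) = Q i)
    (h : ∑ i, Finsupp.single (P i) (1 : ℤ) = ∑ i, Finsupp.single (P' i) (1 : ℤ)) : P = P' := by
  classical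
  funext i
  have hval : ∀ (R : Fin n → ι), (∀ j, r (R j) = Q j) → ∀ x : ι,
      (∑ j, Finsupp.single (R j) (1 : ℤ)) x = if x ∈ Set.range R then 1 else 0 := by
    intro R hR x
    have hRinj : Function.Injective R := fun a b hab => hQ (by rw [← hR a, ← hR b, hab])
    rw [Finsupp.finsetSum_apply]
    split_ifs with hq
    · obtain ⟨j, rfl⟩ := hq
      rw [Finset.sum_eq_single j]
      · simp
      · intro j' _ hj'
        rw [Finsupp.single_apply, if_neg fun e => hj' (hRinj e)]
      · intro h; exact absurd (Finset.mem_univ j) h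
    · refine Finset.sum_eq_zero fun j _ => ?_
      rw [Finsupp.single_apply, if_neg fun e => hq ⟨j, e⟩]
  have h1 : (∑ j, Finsupp.single (P j) (1 : ℤ)) (P i) = (∑ j, Finsupp.single (P' j) (1 : ℤ)) (P i) :=
    by rw [h]
  rw [hval P hP, hval P' hP', if_pos ⟨i, rfl⟩] at h1
  split_ifs at h1 with hmem
  · obtain ⟨j, hj⟩ := hmem
    have hij : j = i := hQ (by rw [← hP' j, hj, hP i])
    rw [← hj, hij]
  · exact absurd h1 one_ne_zero

variable {L : Type*} [Field L] {A : ValuationSubring L}
variable {F : Type*} [Field F] [Algebra L F]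
variable {Fk : Type*} [Field Fk] [Algebra (IsLocalRing.ResidueField A) Fk]
variable [HasPrincipalDivisors L F] [HasPrincipalDivisors (IsLocalRing.ResidueField A) Fk]
variable {D : RedDatum A F Fk} {G : Type*} [Group G] {S : SymData D G} {g : ℕ}

local notation "k" => IsLocalRing.ResidueField A

namespace Fam

variable (a : Fam D S g)

theorem Dv_nonneg (u : Fin g → L) : 0 ≤ a.Dv u := sum_pt_nonneg _

theorem E_nonneg : 0 ≤ a.E := sum_pt_nonneg _

theorem ell_mapDomain_Dv (u : Fin g → L) : ell (Finsupp.mapDomain D.r (a.Dv u)) = 1 := by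
  rw [a.mapDomain_Dv]; exact a.nonspecial

theorem ell_mapDomain_E : ell (Finsupp.mapDomain D.r a.E) = 1 := by
  rw [a.mapDomain_E]; exact a.nonspecial

/-- an effective divisor with the same reduction as the base divisor is `Dv u` -/
theorem exists_eq_Dv {E' : Divisor L F} (hE' : 0 ≤ E')
    (h : Finsupp.mapDomain D.r E' = Finsupp.mapDomain D.r a.E) :
    ∃ u ∈ PolyDisc A (Fin g), a.Dv u = E' := by
  rw [a.mapDomain_E] at h
  obtain ⟨P, hP, hE'P⟩ := exists_points_of_mapDomain_eq_sum_pt D.r hE' a.Qb a.inj h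
  refine ⟨fun i => ev (P i) (a.ch i).t, fun i => (a.ch i).valuation_ev_lt_one (hP i), ?_⟩
  rw [hE'P, Geom.Fam.Dv]
  exact Finset.sum_congr rfl fun i _ => by rw [(a.ch i).pt_ev (hP i)]

/-- `Dv` is injective on the polydisc -/
theorem Dv_injOn {u u' : Fin g → L} (hu : u ∈ PolyDisc A (Fin g)) (hu' : u' ∈ PolyDisc A (Fin g))
    (h : a.Dv u = a.Dv u') : u = u' := by
  have h1 := eq_of_sum_single_eq D.r (P := fun i => (a.ch i).pt (u i))
    (P' := fun i => (a.ch i).pt (u' i)) a.inj (fun i => (a.ch i).r_pt _)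
    (fun i => (a.ch i).r_pt _) h
  funext i
  exact (a.ch i).pt_injOn (hu i) (hu' i) (congrFun h1 i)

end Fam

/-- **(K)**: `Θ_a` is a bijection from the polydisc onto the kernel of reduction -/
theorem kerStmt_of (hO : D.HasOrthonormalBases) (hF : IsCurveOfGenus L F g)
    (hFk : IsCurveOfGenus (IsLocalRing.ResidueField A) Fk g) : KerStmt D S g := by
  intro a
  refine ⟨?_, ?_⟩
  · rintro z ⟨X, rfl, hXr⟩
    obtain ⟨E', hE'0, hE'X, hE'r⟩ := exists_effective_of_mapDomain_principal D hO hF hFk
      (Fam.E_nonneg a) a.degree_E (Fam.ell_mapDomain_E a) (X := (X : Divisor L F)) X.2 hXr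
    obtain ⟨u, hu, hDv⟩ := Fam.exists_eq_Dv a hE'0 hE'r
    refine ⟨u, hu, ?_⟩
    rw [Geom.Fam.Θ]
    refine (QuotientAddGroup.eq_iff_sub_mem (N := (Divisor.principal (K := L) (F := F)).addSubgroupOf
      (Divisor.degZero (K := L) (F := F)))).2 ?_
    rw [AddSubgroup.mem_addSubgroupOf]
    show a.Dv u - a.E - (X : Divisor L F) ∈ _
    rw [hDv]
    exact hE'X
  · intro u hu u' hu' h
    have h1 : a.Dv u - a.Dv u' ∈ Divisor.principal (K := L) (F := F) := by
      have h2 := (QuotientAddGroup.eq_iff_sub_mem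
        (N := (Divisor.principal (K := L) (F := F)).addSubgroupOf
          (Divisor.degZero (K := L) (F := F)))).1 h
      rw [AddSubgroup.mem_addSubgroupOf] at h2
      have h3 : a.Dv u - a.E - (a.Dv u' - a.E) ∈ Divisor.principal (K := L) (F := F) := h2
      have h4 : a.Dv u - a.E - (a.Dv u' - a.E) = a.Dv u - a.Dv u' := by abel
      rwa [h4] at h3
    have h5 := eq_of_principal_of_mapDomain D hO hF hFk (Fam.Dv_nonneg a u')
      (Fam.ell_mapDomain_Dv a u') (Fam.Dv_nonneg a u) h1
    exact Fam.Dv_injOn a hu hu' h5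

end Fermat.Agent.S19lib.B
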