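/-
S19lib / B / TriExists  (helper6, Project FF, block FF-B, part 9: existence of configurations).

* `exists_residue_tri` (pure curve theory): for three non-special effective divisors of degree `g`
  and a finite set `S`, a multiple `n Ȳ`, an effective `C̄` vanishing on `S` and `s̄ ≠ 0` with
  `div s̄ + n Ȳ - C̄ = Ē_a + Ē_b + Ē_c`, and the three facts `L(n Ȳ - C̄ - Ē_x - Ē_y) = k s̄`;
* `exists_fam_of_points` : an admissible family with prescribed fixed centres;
* **`exists_triData`** : two disjoint admissible families are completed by a third one, away from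
  any finite set, to a configuration `TriData a b c`.
-/
import Mathlib
import Fermat.Agent.S19lib.B.Tri
import Fermat.Agent.S19lib.B.Ker

set_option autoImplicit false
set_option linter.unusedSectionVars false

noncomputable section

namespace Fermat.Agent.S19lib.B

open AlgebraicCurve Module
open Fermat.Agent.S18lib Fermat.Agent.S37lib Fermat.Agent.S37lib.B2
open Fermat.Agent.S19lib.C Fermat.Agent.S19lib.Geom

/-! ### the residue side -/

section Residue

variable {K F : Type*} [Field K] [Field F] [Algebra K F] {g : ℕ}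

/-- the residue side of a configuration -/
theorem exists_residue_tri (hF : IsCurveOfGenus K F g) [Infinite K] (Yb : Divisor K F)
    (hYb : 0 < Divisor.degree Yb) {Ea Eb Ec : Divisor K F}
    (ha0 : 0 ≤ Ea) (hb0 : 0 ≤ Eb) (hc0 : 0 ≤ Ec)
    (hadeg : Divisor.degree Ea = g) (hbdeg : Divisor.degree Eb = g)
    (hcdeg : Divisor.degree Ec = g)
    (ha : ell Ea = 1) (hb : ell Eb = 1) (hc : ell Ec = 1) (S : Finset (Place K F)) :
    ∃ (n : ℕ) (Cb : Divisor K F) (s : F), s ≠ 0 ∧ 0 ≤ Cb ∧ (∀ P ∈ S, Cb P = 0) ∧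
      (∀ v : Place K F, v.ord s + ((n : ℤ) • Yb - Cb) v = (Ea + Eb + Ec) v) ∧
      Divisor.degree ((n : ℤ) • Yb - Cb) = 3 * g ∧
      riemannRochSpace ((n : ℤ) • Yb - Cb - Ea - Eb) = Submodule.span K {s} ∧
      riemannRochSpace ((n : ℤ) • Yb - Cb - Eb - Ec) = Submodule.span K {s} ∧
      riemannRochSpace ((n : ℤ) • Yb - Cb - Ec - Ea) = Submodule.span K {s} := by
  classical
  have := hF.hasPrincipalDivisors
  obtain ⟨n, hn⟩ : ∃ n : ℕ, 5 * (g : ℤ) ≤ n * Divisor.degree Yb := by
    refine ⟨5 * g, ?_⟩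
    push_cast
    nlinarith
  set M : Divisor K F := (n : ℤ) • Yb - (Ea + Eb + Ec) with hMdef
  have hdegM : 2 * (g : ℤ) ≤ Divisor.degree M := by
    rw [hMdef, map_sub, map_add, map_add, map_zsmul, hadeg, hbdeg, hcdeg, smul_eq_mul]
    linarith
  obtain ⟨s, Cb, hs0, hCb0, hCbS, hCbs⟩ := exists_effective_avoiding hF hdegM S
  have hord : ∀ v : Place K F, v.ord s + ((n : ℤ) • Yb - Cb) v = (Ea + Eb + Ec) v := by
    intro v
    have := hCbs v
    rw [hMdef, Finsupp.sub_apply] at this
    rw [Finsupp.sub_apply, this]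
    ring
  have hBb : (n : ℤ) • Yb - Cb = Ea + Eb + Ec - divOf (K := K) s := by
    ext v
    have := hord v
    rw [Finsupp.sub_apply (Ea + Eb + Ec), divOf_apply hs0, ← this]
    ring
  refine ⟨n, Cb, s, hs0, hCb0, hCbS, hord, ?_, ?_, ?_, ?_⟩
  · rw [hBb, map_sub, map_add, map_add, degree_divOf, hadeg, hbdeg, hcdeg]
    ring
  · refine rr_eq_span_of_ell_one hF hs0 (E := Ec) (fun v => ?_) hc0 hc
    have := hord v
    simp only [Finsupp.add_apply, Finsupp.sub_apply] at this ⊢
    linarith
  · refine rr_eq_span_of_ell_one hF hs0 (E := Ea) (fun v => ?_) ha0 ha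
    have := hord v
    simp only [Finsupp.add_apply, Finsupp.sub_apply] at this ⊢
    linarith
  · refine rr_eq_span_of_ell_one hF hs0 (E := Eb) (fun v => ?_) hb0 hb
    have := hord v
    simp only [Finsupp.add_apply, Finsupp.sub_apply] at this ⊢
    linarith

end Residue

variable {L : Type*} [Field L] {A : ValuationSubring L}
variable {F : Type*} [Field F] [Algebra L F]
variable {Fk : Type*} [Field Fk] [Algebra (IsLocalRing.ResidueField A) Fk]
variable {D : RedDatum A F Fk} {G : Type*} [Group G] {S : SymData D G} {g : ℕ}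

local notation "k" => IsLocalRing.ResidueField A

/-- the base divisor of a family is stable -/
theorem Fam.fixD_E (a : Fam D S g) : S.FixD a.E :=
  fixD_sum S _ _ fun i _ => fixD_single S (a.fixP i) 1

/-- the base divisor of a family vanishes outside its discs -/
theorem Fam.E_apply_eq_zero (a : Fam D S g) {P : Place L F} (h : ∀ i, D.r P ≠ a.Qb i) :
    a.E P = 0 := by
  classical
  rw [Geom.Fam.E, Finsupp.finsetSum_apply]
  refine Finset.sum_eq_zero fun i _ => ?_
  rw [Finsupp.single_apply, if_neg]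
  intro hP
  exact h i (by rw [← hP, (a.ch i).r_P0])

theorem Fam.degree_Eb (hFk : IsCurveOfGenus (IsLocalRing.ResidueField A) Fk g) (a : Fam D S g) :
    Divisor.degree (Fam.Eb a) = g := by
  rw [Fam.Eb, degree_sum_pt_fin hFk, Fintype.card_fin]

theorem Fam.mapDomain_E_eq [HasPrincipalDivisors L F]
    [HasPrincipalDivisors (IsLocalRing.ResidueField A) Fk] (a : Fam D S g) :
    Finsupp.mapDomain D.r a.E = Fam.Eb a :=
  a.mapDomain_E

/-- an admissible family with prescribed fixed centres -/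
theorem exists_fam_of_points (C : LiftCtx D S g) (Q : Fin g → Place k Fk)
    (hQinj : Function.Injective Q) (hQ : ell (∑ j, pt (Q j)) = 1) (P : Fin g → Place L F)
    (hP : ∀ j, D.r (P j) = Q j) (hPfix : ∀ j, S.FixP (P j)) :
    ∃ c : Fam D S g, c.Qb = Q ∧ ∀ j, (c.ch j).P0 = P j := by
  choose ch hch0 hchfix using fun j => exists_chart_at C (hPfix j)
  refine ⟨{ Qb := fun j => D.r (P j)
            ch := ch
            inj := fun i j hij => hQinj (by rw [← hP i, ← hP j]; exact hij)
            fixT := hchfix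
            fixP := fun j => by rw [hch0 j]; exact hPfix j
            nonspecial := by
              rw [show (∑ i, pt (D.r (P i))) = ∑ i, pt (Q i) from
                Finset.sum_congr rfl fun i _ => by rw [hP i]]
              exact hQ
            deg_one := C.curve.deg_eq_one }, funext hP, hch0⟩

/-- **existence of configurations**: two disjoint admissible families are completed by a third
one, away from any finite set, to a configuration -/
theorem exists_triData (C : LiftCtx D S g) (a b : Fam D S g) (_hab : a.Disjoint b)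
    (T : Finset (Place k Fk)) :
    ∃ c : Fam D S g, a.Disjoint c ∧ b.Disjoint c ∧ c.Avoids T ∧ Nonempty (TriData a b c) := by
  classical
  have := C.curve.hasPrincipalDivisors
  have := C.curvek.hasPrincipalDivisors
  have := C.infinite_k
  have hF := C.curve
  have hFk := C.curvek
  -- the frame, away from the discs of `a` and `b`
  obtain ⟨Y, hY⟩ := exists_frame_avoiding C (Finset.univ.image a.Qb ∪ Finset.univ.image b.Qb)
  obtain ⟨Yb, hYbdef⟩ : ∃ Yb, Yb = Finsupp.mapDomain D.r Y.Y := ⟨_, rfl⟩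
  have hYbdeg : 0 < Divisor.degree Yb := by rw [hYbdef, D.degree_mapDomain]; exact Y.deg_pos
  have hYa : ∀ i, Yb (a.Qb i) = 0 := fun i => by
    rw [hYbdef]
    exact hY _ (Finset.mem_union_left _ (Finset.mem_image.2 ⟨i, Finset.mem_univ i, rfl⟩))
  have hYb' : ∀ i, Yb (b.Qb i) = 0 := fun i => by
    rw [hYbdef]
    exact hY _ (Finset.mem_union_right _ (Finset.mem_image.2 ⟨i, Finset.mem_univ i, rfl⟩))
  -- the third row
  obtain ⟨Qc, hQcinj, hQcS, hQc⟩ := exists_nonspecial hFk
    (T ∪ Finset.univ.image a.Qb ∪ Finset.univ.image b.Qb ∪ Yb.support) g le_rfl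
  have hQcT : ∀ j, Qc j ∉ T := fun j h =>
    hQcS j (Finset.mem_union_left _ (Finset.mem_union_left _ (Finset.mem_union_left _ h)))
  have hQca : ∀ i j, a.Qb i ≠ Qc j := fun i j h =>
    hQcS j (Finset.mem_union_left _ (Finset.mem_union_left _ (Finset.mem_union_right _
      (Finset.mem_image.2 ⟨i, Finset.mem_univ i, h⟩))))
  have hQcb : ∀ i j, b.Qb i ≠ Qc j := fun i j h =>
    hQcS j (Finset.mem_union_left _ (Finset.mem_union_right _
      (Finset.mem_image.2 ⟨i, Finset.mem_univ i, h⟩)))
  have hQcY : ∀ j, Yb (Qc j) = 0 := fun j =>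
    Finsupp.notMem_support_iff.1 fun h => hQcS j (Finset.mem_union_right _ h)
  -- the residue configuration
  obtain ⟨n, Cb, sb, hsb0, hCb0, hCbS, hord, hdegBb, hrr_ab, hrr_bc, hrr_ca⟩ :=
    exists_residue_tri hFk Yb hYbdeg (Ea := Fam.Eb a) (Eb := Fam.Eb b) (Ec := ∑ j, pt (Qc j))
      (sum_pt_nonneg _) (sum_pt_nonneg _) (sum_pt_nonneg _) (Fam.degree_Eb hFk a)
      (Fam.degree_Eb hFk b) (by rw [degree_sum_pt_fin hFk, Fintype.card_fin])
      a.nonspecial b.nonspecial hQc
      (Finset.univ.image a.Qb ∪ Finset.univ.image b.Qb ∪ Finset.univ.image Qc)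
  have hCba : ∀ i, Cb (a.Qb i) = 0 := fun i => hCbS _ (Finset.mem_union_left _
    (Finset.mem_union_left _ (Finset.mem_image.2 ⟨i, Finset.mem_univ i, rfl⟩)))
  have hCbb : ∀ i, Cb (b.Qb i) = 0 := fun i => hCbS _ (Finset.mem_union_left _
    (Finset.mem_union_right _ (Finset.mem_image.2 ⟨i, Finset.mem_univ i, rfl⟩)))
  have hCbc : ∀ j, Cb (Qc j) = 0 := fun j => hCbS _ (Finset.mem_union_right _
    (Finset.mem_image.2 ⟨j, Finset.mem_univ j, rfl⟩))
  -- fixed lift of `C̄`
  choose lift hlift_r hlift_fix using fixedLiftPlaceStmt C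
  obtain ⟨Cd, hCddef⟩ : ∃ Cd : Divisor L F, Cd = Finsupp.mapDomain lift Cb := ⟨_, rfl⟩
  have hCd0 : 0 ≤ Cd := by rw [hCddef]; exact Finsupp.mapDomain_nonneg hCb0
  have hCdr : Finsupp.mapDomain D.r Cd = Cb := by
    rw [hCddef, ← Finsupp.mapDomain_comp]
    have : D.r ∘ lift = id := funext hlift_r
    rw [this, Finsupp.mapDomain_id]
  have hCdfix : S.FixD Cd := fun γ hγ => by
    rw [hCddef, SemilinearAut.divisor_smul_def, ← Finsupp.mapDomain_comp]
    exact Finsupp.mapDomain_congr fun Q _ => hlift_fix Q γ hγ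
  -- the divisor `B`
  obtain ⟨Bd, hBddef⟩ : ∃ Bd : Divisor L F, Bd = (n : ℤ) • Y.Y - Cd := ⟨_, rfl⟩
  have hBdfix : S.FixD Bd := by
    rw [hBddef]; exact fixD_sub S (fixD_zsmul S Y.fixD n) hCdfix
  have hBdr : Finsupp.mapDomain D.r Bd = (n : ℤ) • Yb - Cb := by
    rw [hBddef, Finsupp.mapDomain_sub, Finsupp.mapDomain_smul, hCdr, hYbdef]
  have hBd0 : ∀ P : Place L F, Yb (D.r P) = 0 → Cb (D.r P) = 0 → Bd P = 0 := by
    intro P h1 h2
    have hy : Y.Y P = 0 :=
      apply_eq_zero_of_mapDomain_eq_zero D.r Y.nonneg (by rw [← hYbdef]; exact h1)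
    have hc : Cd P = 0 :=
      apply_eq_zero_of_mapDomain_eq_zero D.r hCd0 (by rw [hCdr]; exact h2)
    rw [hBddef, Finsupp.sub_apply, Finsupp.smul_apply, hy, hc, smul_zero, sub_zero]
  have hdegBd : Divisor.degree Bd = 3 * g := by
    rw [← D.degree_mapDomain, hBdr]; exact hdegBb
  -- the section `s₀`
  obtain ⟨E1, hE1def⟩ : ∃ E1 : Divisor L F, E1 = Bd - a.E - b.E := ⟨_, rfl⟩
  have hE1fix : S.FixD E1 := by
    rw [hE1def]; exact fixD_sub S (fixD_sub S hBdfix (Fam.fixD_E a)) (Fam.fixD_E b)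
  have hE1r : Finsupp.mapDomain D.r E1 = (n : ℤ) • Yb - Cb - Fam.Eb a - Fam.Eb b := by
    rw [hE1def, Finsupp.mapDomain_sub, Finsupp.mapDomain_sub, hBdr, Fam.mapDomain_E_eq a,
      Fam.mapDomain_E_eq b]
  have hrr1 : riemannRochSpace (Finsupp.mapDomain D.r E1) = Submodule.span k {sb} := by
    rw [hE1r]; exact hrr_ab
  have hell1 : ell (Finsupp.mapDomain D.r E1) = 1 := by
    rw [ell_def, hrr1, finrank_span_singleton hsb0]
  have hdegE1 : Divisor.degree E1 = g := by
    rw [hE1def, map_sub, map_sub, hdegBd, a.degree_E, b.degree_E]; ring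
  have hell1' : 1 ≤ ell E1 := by
    have := hF.riemann_le E1
    rw [hdegE1] at this
    rw [ell_def]
    omega
  obtain ⟨s0, hs0E, hs0O, hs0fix, hs0red⟩ := C.exists_fixed_lift_of_ell_le hE1fix
    (by rw [hell1]; exact hell1') (φ := sb)
    (by rw [hrr1]; exact Submodule.mem_span_singleton_self sb)
  have hs0redne : D.redF s0 ≠ 0 := by rw [hs0red]; exact hsb0
  have hs00 : s0 ≠ 0 := by
    rintro rfl
    exact hs0redne D.redF_zero
  -- the divisor `E_c` of the residual zeros
  obtain ⟨Ecd, hEcddef⟩ : ∃ Ecd : Divisor L F, Ecd = divOf (K := L) s0 + E1 := ⟨_, rfl⟩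
  have hEcd0 : 0 ≤ Ecd := by
    rw [hEcddef]
    exact ((mem_riemannRochSpace_iff_divOf (K := L)).1 hs0E).resolve_left hs00
  have hEcdr : Finsupp.mapDomain D.r Ecd = ∑ j, Finsupp.single (Qc j) (1 : ℤ) := by
    rw [hEcddef, Finsupp.mapDomain_add, D.mapDomain_divOf hs0redne, hs0red, hE1r]
    ext v
    have := hord v
    simp only [Finsupp.add_apply, Finsupp.sub_apply] at this ⊢
    rw [divOf_apply hsb0]
    linarith
  obtain ⟨Pc, hPc, hEcdP⟩ := exists_points_of_mapDomain_eq_sum_pt D.r hEcd0 Qc hQcinj hEcdr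
  have hPcinj : Function.Injective Pc := fun i j hij => hQcinj (by rw [← hPc i, ← hPc j, hij])
  have hEcdval : ∀ P : Place L F, Ecd P = if P ∈ Set.range Pc then 1 else 0 := by
    intro P
    rw [hEcdP]
    exact sum_pt_apply Pc hPcinj P
  -- the order of `s₀` on the discs of the third row
  have hord0 : ∀ (P : Place L F) (j : Fin g), D.r P = Qc j → P.ord s0 = Ecd P := by
    intro P j hP
    have h1 : Bd P = 0 := hBd0 P (by rw [hP]; exact hQcY j) (by rw [hP]; exact hCbc j)
    have h2 : a.E P = 0 := Fam.E_apply_eq_zero a fun i h => hQca i j (by rw [← h, hP])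
    have h3 : b.E P = 0 := Fam.E_apply_eq_zero b fun i h => hQcb i j (by rw [← h, hP])
    rw [hEcddef, Finsupp.add_apply, divOf_apply hs00, hE1def, Finsupp.sub_apply,
      Finsupp.sub_apply, h1, h2, h3]
    ring
  have hPcfix : ∀ j, S.FixP (Pc j) := fun j =>
    S.fixP_of_unique_zero hs0fix (hPc j)
      (by rw [hord0 _ j (hPc j), hEcdval, if_pos ⟨j, rfl⟩]; exact one_pos)
      (fun P' hP' hpos => by
        rw [hord0 P' j hP', hEcdval] at hpos
        split_ifs at hpos with hmem
        · obtain ⟨j', rfl⟩ := hmem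
          have : Qc j' = Qc j := by rw [← hPc j', hP']
          rw [hQcinj this]
        · exact absurd hpos (lt_irrefl 0))
  -- the third family
  obtain ⟨c, hcQ, hcP0⟩ := exists_fam_of_points C Qc hQcinj hQc Pc hPc hPcfix
  have hcE : c.E = Ecd := by
    rw [Geom.Fam.E, hEcdP]
    exact Finset.sum_congr rfl fun j _ => by rw [hcP0 j]
  have hcEb : Fam.Eb c = ∑ j, pt (Qc j) := by rw [Fam.Eb, hcQ]
  -- the fixed orthonormal basis
  have hfr : finrank L (riemannRochSpace Bd) = 2 * g + 1 := by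
    have := hF.riemann_eq Bd (by rw [hdegBd]; linarith)
    rw [hdegBd] at this
    omega
  obtain ⟨e, heB, heorth, hefix, hespan, hebspan⟩ :=
    C.exists_fixed_orthonormal_basis_rr hBdfix (by rw [hdegBd]; linarith) hfr
  refine ⟨c, fun i j => by rw [hcQ]; exact hQca i j, fun i j => by rw [hcQ]; exact hQcb i j,
    fun j => by rw [hcQ]; exact hQcT j, ⟨{
      Bd := Bd
      B_fix := hBdfix
      B_disc_a := fun P i hP => hBd0 P (by rw [hP]; exact hYa i) (by rw [hP]; exact hCba i)
      B_disc_b := fun P i hP => hBd0 P (by rw [hP]; exact hYb' i) (by rw [hP]; exact hCbb i)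
      B_disc_c := fun P i hP => by
        rw [hcQ] at hP
        exact hBd0 P (by rw [hP]; exact hQcY i) (by rw [hP]; exact hCbc i)
      deg_B := hdegBd
      s0 := s0
      s0_mem := hs0O
      s0_fix := hs0fix
      red_s0_ne := hs0redne
      ord_s0 := fun P => by
        rw [hcE, hEcddef, hE1def]
        simp only [Finsupp.add_apply, Finsupp.sub_apply]
        rw [divOf_apply hs00]
        ring
      e := e
      e_mem := heB
      e_orth := heorth
      e_fix := hefix
      e_span := hespan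
      eb_span := hebspan
      rr_ab := by rw [hBdr, hs0red]; exact hrr_ab
      rr_bc := by rw [hBdr, hs0red, hcEb]; exact hrr_bc
      rr_ca := by rw [hBdr, hs0red, hcEb]; exact hrr_ca }⟩⟩

end Fermat.Agent.S19lib.B
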