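/-
S19lib / B / TriSolve  (helper6, Project FF, block FF-B, part 10: the solution map, algebraically).

For a configuration `T : TriData a b c` and coordinates `u, v`:

* `T.Res u v = B - D_a(u) - D_b(v)` : the residual divisor (degree `g`), `ℓ(Res) = 1`,
  `L(Res) ∩ O` reduces onto `k · s̄₀`  (`ell_Res`, `exists_section`, `rr_Res_eq_span`);
* `exists_solution` : there is a unique `w` in the polydisc with
  `div s + B = D_a(u) + D_b(v) + D_c(w)` for every nonzero `s ∈ L(Res)`;
* `T.tau C` : the solution map, `tau_mem`, `tau_div`, `tau_spec`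
  (`Θ_a u + Θ_b v + Θ_c (tau (u, v)) = 0`), `tau_unique`, `ord_eq_of_r_eq` (the zeros of `s` on the
  discs of `c`);
* `T.solveOfAnalytic C han : Solve a b c ϖ` : everything of `Geom.Solve` except analyticity.
-/
import Mathlib
import Fermat.Agent.S19lib.B.TriExists
import Fermat.Agent.S19lib.B.Ker

set_option autoImplicit false
set_option linter.unusedSectionVars false

noncomputable section

namespace Fermat.Agent.S19lib.B

open AlgebraicCurve Module
open Fermat.Agent.S18lib Fermat.Agent.S37lib Fermat.Agent.S37lib.B2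
open Fermat.Agent.S19lib.C Fermat.Agent.S19lib.Geom

variable {L : Type*} [Field L] {A : ValuationSubring L}
variable {F : Type*} [Field F] [Algebra L F]
variable {Fk : Type*} [Field Fk] [Algebra (IsLocalRing.ResidueField A) Fk]
variable [HasPrincipalDivisors L F] [HasPrincipalDivisors (IsLocalRing.ResidueField A) Fk]
variable {D : RedDatum A F Fk} {G : Type*} [Group G] {S : SymData D G} {g : ℕ}
variable {a b c : Fam D S g}

local notation "k" => IsLocalRing.ResidueField A

omit [HasPrincipalDivisors L F] [HasPrincipalDivisors (IsLocalRing.ResidueField A) Fk] in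
/-- a class of `Pic⁰` vanishes iff its divisors are principal -/
theorem pic0_mk_eq_zero {K₀ F₀ : Type*} [Field K₀] [Field F₀] [Algebra K₀ F₀]
    (E : Divisor.degZero (K := K₀) (F := F₀)) :
    Pic0.mk E = 0 ↔ (E : Divisor K₀ F₀) ∈ Divisor.principal (K := K₀) (F := F₀) := by
  unfold Pic0.mk
  rw [QuotientAddGroup.eq_zero_iff, AddSubgroup.mem_addSubgroupOf]

/-- `D_a(u)` vanishes outside the discs of `a` -/
theorem Fam.Dv_apply_eq_zero (a : Fam D S g) (u : Fin g → L) {P : Place L F}
    (h : ∀ i, D.r P ≠ a.Qb i) : a.Dv u P = 0 := by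
  classical
  rw [Geom.Fam.Dv, Finsupp.finsetSum_apply]
  refine Finset.sum_eq_zero fun i _ => ?_
  rw [Finsupp.single_apply, if_neg]
  intro hP
  exact h i (by rw [← hP, (a.ch i).r_pt])

/-- `D_a(u)` on the `i`-th disc of `a` -/
theorem Fam.Dv_apply_of_r_eq (a : Fam D S g) (u : Fin g → L) {P : Place L F} {i : Fin g}
    (hP : D.r P = a.Qb i) [Decidable (P = (a.ch i).pt (u i))] :
    a.Dv u P = if P = (a.ch i).pt (u i) then 1 else 0 := by
  classical
  rw [Geom.Fam.Dv, Finsupp.finsetSum_apply, Finset.sum_eq_single i]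
  · rw [Finsupp.single_apply]
    by_cases h : P = (a.ch i).pt (u i)
    · rw [if_pos h, if_pos h.symm]
    · rw [if_neg h, if_neg fun h' => h h'.symm]
  · intro j _ hji
    rw [Finsupp.single_apply, if_neg]
    intro hj
    refine hji (a.inj ?_)
    rw [← hP, ← hj, (a.ch j).r_pt]
  · intro h; exact absurd (Finset.mem_univ i) h

namespace TriData

variable (T : TriData a b c)

/-- `div s₀ + B = E_a + E_b + E_c` -/
theorem divOf_s0 : divOf (K := L) T.s0 + T.Bd = a.E + b.E + c.E := by
  ext P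
  rw [Finsupp.add_apply, divOf_apply', T.ord_s0 P]

/-- the push-forward of the configuration relation -/
theorem divOf_red_s0 :
    divOf (K := k) (D.redF T.s0) + Finsupp.mapDomain D.r T.Bd = Fam.Eb a + Fam.Eb b + Fam.Eb c := by
  rw [← D.mapDomain_divOf T.red_s0_ne, ← Finsupp.mapDomain_add, T.divOf_s0, Finsupp.mapDomain_add,
    Finsupp.mapDomain_add, Fam.mapDomain_E_eq, Fam.mapDomain_E_eq, Fam.mapDomain_E_eq]

/-- the residual divisor `B - D_a(u) - D_b(v)` -/
def Res (u v : Fin g → L) : Divisor L F := T.Bd - a.Dv u - b.Dv v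

theorem degree_Res (u v : Fin g → L) : Divisor.degree (T.Res u v) = g := by
  rw [Res, map_sub, map_sub, T.deg_B, a.degree_Dv, b.degree_Dv]; ring

theorem mapDomain_Res (u v : Fin g → L) :
    Finsupp.mapDomain D.r (T.Res u v) = Finsupp.mapDomain D.r T.Bd - Fam.Eb a - Fam.Eb b := by
  rw [Res, Finsupp.mapDomain_sub, Finsupp.mapDomain_sub, a.mapDomain_Dv, b.mapDomain_Dv]
  rfl

theorem ell_mapDomain_Res (u v : Fin g → L) : ell (Finsupp.mapDomain D.r (T.Res u v)) = 1 := by
  rw [T.mapDomain_Res, ell_def, T.rr_ab]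
  exact finrank_span_singleton T.red_s0_ne

/-- the trilinear relation on `Pic⁰` in terms of divisors -/
theorem theta_sum_eq_zero_iff (u v w : Fin g → L) :
    a.Θ u + b.Θ v + c.Θ w = 0 ↔
      a.Dv u + b.Dv v + c.Dv w - T.Bd ∈ Divisor.principal (K := L) (F := F) := by
  have hsplit : a.Dv u - a.E + (b.Dv v - b.E) + (c.Dv w - c.E) =
      (a.Dv u + b.Dv v + c.Dv w - T.Bd) - (a.E + b.E + c.E - T.Bd) := by abel
  have hmem : a.Θ u + b.Θ v + c.Θ w = 0 ↔
      a.Dv u - a.E + (b.Dv v - b.E) + (c.Dv w - c.E) ∈ Divisor.principal (K := L) (F := F) := by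
    rw [Geom.Fam.Θ, Geom.Fam.Θ, Geom.Fam.Θ, ← Pic0.mk_add, ← Pic0.mk_add, pic0_mk_eq_zero]
    rfl
  rw [hmem, hsplit]
  constructor
  · intro h
    have := AddSubgroup.add_mem _ h T.principal
    rwa [sub_add_cancel] at this
  · intro h
    exact AddSubgroup.sub_mem _ h T.principal

variable (C : LiftCtx D S g)
include C

theorem ell_Res (u v : Fin g → L) : ell (T.Res u v) = 1 := by
  have h1 := ell_le_ell_mapDomain D C.orth C.curve C.curvek (T.Res u v)
  rw [T.ell_mapDomain_Res] at h1
  have h2 := C.curve.riemann_le (T.Res u v)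
  rw [T.degree_Res, ← ell_def] at h2
  omega

/-- a section of `L(Res)` of Gauss norm one reducing to `s̄₀` -/
theorem exists_section (u v : Fin g → L) :
    ∃ s ∈ riemannRochSpace (T.Res u v), s ∈ D.O ∧ D.redF s = D.redF T.s0 := by
  have h : ell (Finsupp.mapDomain D.r (T.Res u v)) ≤ ell (T.Res u v) := by
    rw [T.ell_mapDomain_Res, T.ell_Res C]
  have hmem : D.redF T.s0 ∈ riemannRochSpace (Finsupp.mapDomain D.r (T.Res u v)) := by
    rw [T.mapDomain_Res, T.rr_ab]
    exact Submodule.mem_span_singleton_self _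
  rw [← redSub_rr_eq_of_ell_le C.orth C.curve C.curvek h] at hmem
  exact hmem

/-- `L(Res)` is the line through any of its nonzero elements -/
theorem rr_Res_eq_span (u v : Fin g → L) {s : F} (hs : s ∈ riemannRochSpace (T.Res u v))
    (hs0 : s ≠ 0) : riemannRochSpace (T.Res u v) = Submodule.span L {s} := by
  have hfd := C.curve.finiteDimensional (T.Res u v)
  symm
  apply Submodule.eq_of_le_of_finrank_eq
  · rw [Submodule.span_le, Set.singleton_subset_iff]; exact hs
  · rw [finrank_span_singleton hs0, ← ell_def, T.ell_Res C]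

/-- **the solution**, existence -/
theorem exists_solution (u v : Fin g → L) :
    ∃ w ∈ PolyDisc A (Fin g), ∀ s ∈ riemannRochSpace (T.Res u v), s ≠ 0 →
      divOf (K := L) s + T.Bd = a.Dv u + b.Dv v + c.Dv w := by
  obtain ⟨s, hsE, hsO, hsred⟩ := T.exists_section C u v
  have hsredne : D.redF s ≠ 0 := by rw [hsred]; exact T.red_s0_ne
  have hs0 : s ≠ 0 := by
    rintro rfl
    exact hsredne D.redF_zero
  have hZ0 : 0 ≤ divOf (K := L) s + T.Res u v :=
    ((mem_riemannRochSpace_iff_divOf (K := L)).1 hsE).resolve_left hs0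
  have hZr : Finsupp.mapDomain D.r (divOf (K := L) s + T.Res u v) = Finsupp.mapDomain D.r c.E := by
    rw [Finsupp.mapDomain_add, D.mapDomain_divOf hsredne, hsred, T.mapDomain_Res,
      Fam.mapDomain_E_eq]
    have h1 := T.divOf_red_s0
    have h2 : divOf (K := k) (D.redF T.s0) + (Finsupp.mapDomain D.r T.Bd - Fam.Eb a - Fam.Eb b) =
        divOf (K := k) (D.redF T.s0) + Finsupp.mapDomain D.r T.Bd - Fam.Eb a - Fam.Eb b := by abel
    rw [h2, h1]; abel
  obtain ⟨w, hw, hDv⟩ := Fam.exists_eq_Dv c hZ0 hZr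
  refine ⟨w, hw, fun s' hs' hs'0 => ?_⟩
  -- `s'` is a constant multiple of `s`
  rw [T.rr_Res_eq_span C u v hsE hs0, Submodule.mem_span_singleton] at hs'
  obtain ⟨t, rfl⟩ := hs'
  have ht : t ≠ 0 := by
    rintro rfl
    exact hs'0 (zero_smul _ _)
  rw [Algebra.smul_def, divOf_algebraMap_mul ht, hDv, Res]
  abel

/-- **the solution**, uniqueness -/
theorem solution_unique (u v : Fin g → L) {w w' : Fin g → L} (hw : w ∈ PolyDisc A (Fin g))
    (hw' : w' ∈ PolyDisc A (Fin g))
    (h : a.Dv u + b.Dv v + c.Dv w - T.Bd ∈ Divisor.principal (K := L) (F := F))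
    (h' : a.Dv u + b.Dv v + c.Dv w' - T.Bd ∈ Divisor.principal (K := L) (F := F)) : w' = w := by
  have h1 : c.Dv w' - c.Dv w ∈ Divisor.principal (K := L) (F := F) := by
    have := AddSubgroup.sub_mem _ h' h
    have h2 : a.Dv u + b.Dv v + c.Dv w' - T.Bd - (a.Dv u + b.Dv v + c.Dv w - T.Bd) =
        c.Dv w' - c.Dv w := by abel
    rwa [h2] at this
  have h3 := eq_of_principal_of_mapDomain D C.orth C.curve C.curvek (Fam.Dv_nonneg c w)
    (Fam.ell_mapDomain_Dv c w) (Fam.Dv_nonneg c w') h1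
  exact Fam.Dv_injOn c hw' hw h3

/-- **the solution map** `(u, v) ↦ w` -/
def tau (w : Fin g ⊕ Fin g → L) : Fin g → L :=
  (T.exists_solution C (fun i => w (Sum.inl i)) (fun i => w (Sum.inr i))).choose

theorem tau_mem (w : Fin g ⊕ Fin g → L) : T.tau C w ∈ PolyDisc A (Fin g) :=
  (T.exists_solution C (fun i => w (Sum.inl i)) (fun i => w (Sum.inr i))).choose_spec.1

/-- the divisor of any nonzero section of `L(B - D_a(u) - D_b(v))` -/
theorem tau_div (w : Fin g ⊕ Fin g → L) {s : F}
    (hs : s ∈ riemannRochSpace (T.Res (fun i => w (Sum.inl i)) (fun i => w (Sum.inr i))))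
    (hs0 : s ≠ 0) :
    divOf (K := L) s + T.Bd =
      a.Dv (fun i => w (Sum.inl i)) + b.Dv (fun i => w (Sum.inr i)) + c.Dv (T.tau C w) :=
  (T.exists_solution C (fun i => w (Sum.inl i)) (fun i => w (Sum.inr i))).choose_spec.2 s hs hs0

theorem tau_principal (w : Fin g ⊕ Fin g → L) :
    a.Dv (fun i => w (Sum.inl i)) + b.Dv (fun i => w (Sum.inr i)) + c.Dv (T.tau C w) - T.Bd ∈
      Divisor.principal (K := L) (F := F) := by
  obtain ⟨s, hsE, -, hsred⟩ :=
    T.exists_section C (fun i => w (Sum.inl i)) (fun i => w (Sum.inr i))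
  have hs0 : s ≠ 0 := by
    rintro rfl
    exact T.red_s0_ne (by rw [← hsred]; exact D.redF_zero)
  rw [← T.tau_div C w hsE hs0, add_sub_cancel_right]
  exact divOf_mem_principal hs0

/-- the trilinear relation -/
theorem tau_spec (w : Fin g ⊕ Fin g → L) :
    a.Θ (fun i => w (Sum.inl i)) + b.Θ (fun i => w (Sum.inr i)) + c.Θ (T.tau C w) = 0 :=
  (T.theta_sum_eq_zero_iff _ _ _).2 (T.tau_principal C w)

/-- the solution map is characterised by the trilinear relation -/
theorem tau_unique (w : Fin g ⊕ Fin g → L) {w' : Fin g → L} (hw' : w' ∈ PolyDisc A (Fin g))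
    (h : a.Θ (fun i => w (Sum.inl i)) + b.Θ (fun i => w (Sum.inr i)) + c.Θ w' = 0) :
    w' = T.tau C w :=
  T.solution_unique C _ _ (T.tau_mem C w) hw' (T.tau_principal C w)
    ((T.theta_sum_eq_zero_iff _ _ _).1 h)

/-- the zeros of a section of `L(B - D_a(u) - D_b(v))` on the discs of `c`: one simple zero in
each, at the point with coordinate `tau (u, v) j` -/
theorem ord_of_r_eq_c (hac : a.Disjoint c) (hbc : b.Disjoint c) (w : Fin g ⊕ Fin g → L) {s : F}
    (hs : s ∈ riemannRochSpace (T.Res (fun i => w (Sum.inl i)) (fun i => w (Sum.inr i))))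
    (hs0 : s ≠ 0) {P : Place L F} {j : Fin g} (hP : D.r P = c.Qb j)
    [Decidable (P = (c.ch j).pt (T.tau C w j))] :
    P.ord s = if P = (c.ch j).pt (T.tau C w j) then 1 else 0 := by
  have h := congrArg (fun E : Divisor L F => E P) (T.tau_div C w hs hs0)
  simp only [Finsupp.add_apply] at h
  rw [divOf_apply', T.B_disc_c P j hP, add_zero,
    Fam.Dv_apply_eq_zero a _ (fun i => by rw [hP]; exact (hac i j).symm),
    Fam.Dv_apply_eq_zero b _ (fun i => by rw [hP]; exact (hbc i j).symm), zero_add, zero_add,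
    Fam.Dv_apply_of_r_eq c _ hP] at h
  exact h

/-- the zeros on the discs of `a` -/
theorem ord_of_r_eq_a (hab : a.Disjoint b) (hac : a.Disjoint c) (w : Fin g ⊕ Fin g → L) {s : F}
    (hs : s ∈ riemannRochSpace (T.Res (fun i => w (Sum.inl i)) (fun i => w (Sum.inr i))))
    (hs0 : s ≠ 0) {P : Place L F} {i : Fin g} (hP : D.r P = a.Qb i)
    [Decidable (P = (a.ch i).pt (w (Sum.inl i)))] :
    P.ord s = if P = (a.ch i).pt (w (Sum.inl i)) then 1 else 0 := by
  have h := congrArg (fun E : Divisor L F => E P) (T.tau_div C w hs hs0)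
  simp only [Finsupp.add_apply] at h
  rw [divOf_apply', T.B_disc_a P i hP, add_zero,
    Fam.Dv_apply_eq_zero b _ (fun j => by rw [hP]; exact hab i j),
    Fam.Dv_apply_eq_zero c _ (fun j => by rw [hP]; exact hac i j), add_zero, add_zero,
    Fam.Dv_apply_of_r_eq a _ hP] at h
  exact h

/-- the zeros on the discs of `b` -/
theorem ord_of_r_eq_b (hab : a.Disjoint b) (hbc : b.Disjoint c) (w : Fin g ⊕ Fin g → L) {s : F}
    (hs : s ∈ riemannRochSpace (T.Res (fun i => w (Sum.inl i)) (fun i => w (Sum.inr i))))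
    (hs0 : s ≠ 0) {P : Place L F} {i : Fin g} (hP : D.r P = b.Qb i)
    [Decidable (P = (b.ch i).pt (w (Sum.inr i)))] :
    P.ord s = if P = (b.ch i).pt (w (Sum.inr i)) then 1 else 0 := by
  have h := congrArg (fun E : Divisor L F => E P) (T.tau_div C w hs hs0)
  simp only [Finsupp.add_apply] at h
  rw [divOf_apply', T.B_disc_b P i hP, add_zero,
    Fam.Dv_apply_eq_zero a _ (fun j => by rw [hP]; exact (hab j i).symm),
    Fam.Dv_apply_eq_zero c _ (fun j => by rw [hP]; exact hbc i j), zero_add, add_zero,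
    Fam.Dv_apply_of_r_eq b _ hP] at h
  exact h

/-- **(P1)**, in the form consumed by `D/Solve` (`D.AlgSolution T`) -/
theorem algSolution : ∀ w ∈ PolyDisc A (Fin g ⊕ Fin g), ∃ x ∈ PolyDisc A (Fin g), ∃ s : F, s ≠ 0 ∧
    ∀ P : Place L F, P.ord s = (a.Dv (fun i => w (Sum.inl i)) + b.Dv (fun i => w (Sum.inr i))
      + c.Dv x - T.Bd) P := by
  intro w _
  obtain ⟨s, hsE, -, hsred⟩ :=
    T.exists_section C (fun i => w (Sum.inl i)) (fun i => w (Sum.inr i))
  have hs0 : s ≠ 0 := by
    rintro rfl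
    exact T.red_s0_ne (by rw [← hsred]; exact D.redF_zero)
  refine ⟨T.tau C w, T.tau_mem C w, s, hs0, fun P => ?_⟩
  rw [← T.tau_div C w hsE hs0, add_sub_cancel_right, divOf_apply']

/-- **everything of `Solve` except analyticity** -/
def solveOfAnalytic {ϖ : L} (han : AnalyticMap A S.R ϖ (T.tau C)) : Solve a b c ϖ where
  τ := T.tau C
  mem := fun w _ => T.tau_mem C w
  spec := fun w _ => T.tau_spec C w
  an := han

end TriData

end Fermat.Agent.S19lib.B
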