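/-
S19lib / B / Inst  (helper6, Project FF, block FF-B): **the modular instance of the symmetry data**.

`ℓ ∤ N`, `A` a valuation subring of `ℚ̄` over `ℓ`, `D_A` its decomposition group, `I_A` inertia.

* `modDatum N A hℓN hA : ModDatum N A` : the reduction datum of level `N` (Gauss valuation ring,
  coefficientwise reduction, the place reduction map of the Prelude);
* `modDatum_hasOrthonormalBases`, `exists_genus_modDatum` (equal genus on both sides);
* `modSym N A hℓN hA : Geom.SymData (modDatum …) D_A` : `ρ g = ` coefficientwise action of `g` on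
  `FBar N`, `ρb g = ` coefficientwise action of the induced automorphism of the residue field on
  `FRes A N`, `I = ` the inertia subgroup;
* `modSym_hasFixedLifts` : the lifting property of `I_A`-stable Riemann–Roch spaces (Speiser +
  the `K`-rational Gauss datum of `S36lib/Desc2`).
-/
import Mathlib
import Fermat.Agent.S19lib.Geom.Setup
import Fermat.Agent.S37lib.C0.Wire
import Fermat.Agent.S37lib.B3.Inst
import Fermat.Agent.S36lib.Desc2.Places
import Fermat.Agent.S36lib.Fin.ChartFam

set_option autoImplicit false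
set_option linter.unusedSectionVars false

noncomputable section

namespace Fermat.Agent.S19lib.B

open AlgebraicCurve ModularCurve
open Fermat.Agent.S18lib Fermat.Agent.S37lib Fermat.Agent.S37lib.C0
open Fermat.Agent.S19lib.Geom
open Fermat.Agent.S36lib Fermat.Agent.S36lib.Desc Fermat.Agent.S36lib.Desc2
open Fermat.Agent.S29lib.GH

local notation "Qb" => AlgebraicClosure ℚ
local notation "GQ" => (AlgebraicClosure ℚ ≃ₐ[ℚ] AlgebraicClosure ℚ)

variable (N : ℕ) [NeZero N] {ℓ : ℕ} [Fact ℓ.Prime]
variable (A : ValuationSubring (AlgebraicClosure ℚ))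
variable (hℓN : ¬ ℓ ∣ N) (hA : A.LiesOverPrime ℓ)

local notation "kA" => IsLocalRing.ResidueField A
local notation "DA" => ValuationSubring.decompositionSubgroup ℚ A

/-- **the reduction datum of level `N`** -/
def modDatum : ModDatum N A :=
  B3.datumOf N A hℓN hA (placeReductionModL (B3.reductionInputsModL N A hℓN hA))
    (isPlaceReductionModL_placeReductionModL _)

theorem modDatum_r :
    (modDatum N A hℓN hA).r = placeReductionModL (B3.reductionInputsModL N A hℓN hA) := rfl

theorem modDatum_toGaussDatum :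
    (modDatum N A hℓN hA).toGaussDatum = V.gaussDatum N A hℓN hA := rfl

theorem modDatum_O : (modDatum N A hℓN hA).O = (V.gaussDatum N A hℓN hA).O := rfl

theorem modDatum_redF (f : FBar N) :
    (modDatum N A hℓN hA).redF f = (V.gaussDatum N A hℓN hA).redF f := rfl

theorem modDatum_hasOrthonormalBases : (modDatum N A hℓN hA).HasOrthonormalBases :=
  B3.datumOf_hasOrthonormalBases N A hℓN hA _ _

include hℓN hA in
/-- equal genus on both sides -/
theorem exists_genus_modDatum :
    ∃ g : ℕ, IsCurveOfGenus Qb (FBar N) g ∧ IsCurveOfGenus kA (FRes A N) g :=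
  B3.exists_genus_level N A hℓN hA (B3.reductionInputsModL N A hℓN hA)

/-! ### the action of the decomposition group on the Gauss ring -/

/-- the transported integral modular function -/
def sigmaInt (g : DA) (a : V.IntRing N A) : V.IntRing N A :=
  ⟨coeffMap ((sigmaA A g : A ≃+* A) : A →+* A) a.1, sigmaA_mem_IntRing A N g a.2⟩

theorem elemL_sigmaInt (g : DA) (a : V.IntRing N A) :
    V.elemL (sigmaInt N A g a) = galAut A N g • V.elemL a :=
  Subtype.ext (coeffMap_subtype_sigmaA A g a.1)

theorem elemK_sigmaInt (g : DA) (a : V.IntRing N A) :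
    V.elemK (sigmaInt N A g a) = resAutD A N g • V.elemK a :=
  Subtype.ext (coeffMap_residue_sigmaA A g a.1)

theorem isRep_smul (g : DA) {x : FBar N} {a b : V.IntRing N A} (h : V.IsRep x a b) :
    V.IsRep (galAut A N g • x) (sigmaInt N A g a) (sigmaInt N A g b) := by
  refine ⟨?_, ?_⟩
  · rw [elemK_sigmaInt]
    intro h0
    rw [smul_eq_zero_iff_eq] at h0
    exact h.1 h0
  · rw [elemL_sigmaInt, elemL_sigmaInt, ← smul_mul', h.2]

/-- `D_A` preserves the Gauss ring -/
theorem smul_mem_gaussDatum_O (g : DA) {x : FBar N} (hx : x ∈ (V.gaussDatum N A hℓN hA).O) :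
    galAut A N g • x ∈ (V.gaussDatum N A hℓN hA).O := by
  obtain ⟨a, b, hab⟩ := hx
  exact ⟨_, _, isRep_smul N A g hab⟩

/-- reduction is `D_A`-equivariant -/
theorem gaussDatum_redF_smul (g : DA) {x : FBar N} (hx : x ∈ (V.gaussDatum N A hℓN hA).O) :
    (V.gaussDatum N A hℓN hA).redF (galAut A N g • x) =
      resAutD A N g • (V.gaussDatum N A hℓN hA).redF x := by
  obtain ⟨a, b, hab⟩ := hx
  rw [V.gaussDatum_redF_apply N A hℓN hA (isRep_smul N A g hab),
    V.gaussDatum_redF_apply N A hℓN hA hab, elemK_sigmaInt, elemK_sigmaInt,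
    div_eq_mul_inv, div_eq_mul_inv, smul_mul', smul_inv'']

/-! ### the symmetry data -/

/-- `ρ` : the coefficientwise action of `D_A` on `FBar N` -/
def modRho : DA →* SemilinearAut Qb (FBar N) :=
  (arithmeticGalois (modularFunctionFieldFull N)).comp (Subgroup.subtype DA)

theorem modRho_apply (g : DA) : modRho N A g = galAut A N g := rfl

/-- `ρb` : the action of `D_A` on `FRes A N` through the residue field -/
def modRhoBar : DA →* SemilinearAut kA (FRes A N) := (resAut kA N).comp (sigmaBar A)

theorem modRhoBar_apply (g : DA) : modRhoBar N A g = resAutD A N g := rfl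

/-- **the modular symmetry data** -/
def modSym : SymData (modDatum N A hℓN hA) DA where
  ρ := modRho N A
  ρb := modRhoBar N A
  I := ValuationSubring.inertiaSubgroup ℚ A
  normal := by
    unfold ValuationSubring.inertiaSubgroup
    exact MonoidHom.normal_ker _
  mem_A := fun g a ha => (sigmaA A g ⟨a, ha⟩).2
  residue_base := fun g a => residue_sigmaA A g a
  mem_O := fun g f hf => smul_mem_gaussDatum_O N A hℓN hA g hf
  redF_smul := fun g f hf => gaussDatum_redF_smul N A hℓN hA g hf
  r_smul := fun g P =>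
    placeReductionModL_smul (placeReductionUnique N A hℓN hA) (B3.reductionInputsModL N A hℓN hA) g P
  inertia := fun g hg => by
    rw [modRhoBar_apply, resAutD, sigmaBar_eq_one_of_mem_inertia A hg, map_one]

theorem modSym_ρ (g : DA) : (modSym N A hℓN hA).ρ g = galAut A N g := rfl

theorem modSym_ρb (g : DA) : (modSym N A hℓN hA).ρb g = resAutD A N g := rfl

theorem modSym_I : (modSym N A hℓN hA).I = ValuationSubring.inertiaSubgroup ℚ A := rfl

/-! ### fixed lifts -/

/-- an `I`-stable divisor in the sense of `SymData` is stable in the sense of `S36lib` -/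
theorem isStableDiv_of_fixD {E : Divisor Qb (FBar N)} (hE : (modSym N A hℓN hA).FixD E) :
    Fin.IsStableDiv N (A.inertiaSubgroupIn ℚ) E := by
  rintro σ ⟨g, hg, rfl⟩
  exact hE g hg

/-- a function fixed by `A.inertiaSubgroupIn ℚ` is `I`-fixed in the sense of `SymData` -/
theorem fixF_of_mem_fixF {f : FBar N} (hf : f ∈ fixF N (A.inertiaSubgroupIn ℚ)) :
    (modSym N A hℓN hA).FixF f := by
  intro g hg
  exact mem_fixF.1 hf _ ⟨g, hg, rfl⟩

theorem mem_fixF_of_fixF {f : FBar N} (hf : (modSym N A hℓN hA).FixF f) :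
    f ∈ fixF N (A.inertiaSubgroupIn ℚ) := by
  rw [mem_fixF]
  rintro σ ⟨g, hg, rfl⟩
  exact hf g hg

/-- **the lifting property of `I_A`-stable Riemann–Roch spaces** -/
theorem modSym_hasFixedLifts : (modSym N A hℓN hA).HasFixedLifts := by
  intro E hE f hfE hfO
  have hℓ : ℓ.Prime := Fact.out
  have hEst := isStableDiv_of_fixD N A hℓN hA hE
  obtain ⟨gen, hF, -⟩ := exists_genus_modDatum N A hℓN hA
  have : FiniteDimensional Qb (riemannRochSpace E) := hF.finiteDimensional E
  have : FiniteDimensional (fixK (A.inertiaSubgroupIn ℚ))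
      (Fin.fixL N (A.inertiaSubgroupIn ℚ) E) := Fin.finiteDimensional_fixL hF hEst
  obtain ⟨y, hyW, hyO, hyred⟩ := exists_fixed_lift (descentBase_Wfix hℓ hA)
    (residueSurj_Wfix hℓ hA) (algCompat_of_resCompat (resCompat_resAlgebraOn A _))
    (compat_gaussMK N A hℓN hA) (gaussMK_hasOrthonormalBases N A hℓN hA)
    (riemannRochSpace E) (Fin.fixL N (A.inertiaSubgroupIn ℚ) E) (fun x => Fin.mem_fixL)
    (Fin.finrank_fixL hEst) hfE hfO
  refine ⟨(y : FBar N), Fin.mem_fixL.1 hyW, (mem_gaussMK_O N A hℓN hA).1 hyO,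
    fixF_of_mem_fixF N A hℓN hA y.2, ?_⟩
  rw [modDatum_redF, modDatum_redF, ← gaussMK_redF N A hℓN hA y]
  exact hyred

end Fermat.Agent.S19lib.B
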