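/-
S19lib / B / InstCtx  (helper6, Project FF, block FF-B): the standing hypotheses `LiftCtx` of the
lifting block in the modular instance, with the frame `(j)_∞`, and the resulting instances of the
statements **(Y0)**, **(Y)**, **(K)** of `Geom/Family` for `(modDatum, modSym)`.
-/
import Mathlib
import Fermat.Agent.S19lib.B.Inst
import Fermat.Agent.S19lib.B.Lift
import Fermat.Agent.S19lib.B.Ker
import Fermat.Agent.S36lib.Desc2.LiftM

set_option autoImplicit false
set_option linter.unusedSectionVars false

noncomputable section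

namespace Fermat.Agent.S19lib.B

open AlgebraicCurve ModularCurve
open Fermat.Agent.S18lib Fermat.Agent.S37lib Fermat.Agent.S37lib.C0
open Fermat.Agent.S19lib.Geom
open Fermat.Agent.S36lib Fermat.Agent.S36lib.Desc Fermat.Agent.S36lib.Desc2
open Fermat.Agent.S29lib.GH Fermat.Agent.ProgramR

local notation "Qb" => AlgebraicClosure ℚ
local notation "GQ" => (AlgebraicClosure ℚ ≃ₐ[ℚ] AlgebraicClosure ℚ)

variable (N : ℕ) [NeZero N] {ℓ : ℕ} [Fact ℓ.Prime]
variable (A : ValuationSubring (AlgebraicClosure ℚ))
variable (hℓN : ¬ ℓ ∣ N) (hA : A.LiesOverPrime ℓ)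

local notation "kA" => IsLocalRing.ResidueField A
local notation "DA" => ValuationSubring.decompositionSubgroup ℚ A

/-- a divisor stable under `A.inertiaSubgroupIn ℚ` is `I`-stable in the sense of `SymData` -/
theorem fixD_of_isStableDiv {E : Divisor Qb (FBar N)}
    (hE : Fin.IsStableDiv N (A.inertiaSubgroupIn ℚ) E) : (modSym N A hℓN hA).FixD E := by
  intro g hg
  exact hE _ ⟨g, hg, rfl⟩

/-- **the frame `(j)_∞`** -/
def modFrame [HasPrincipalDivisors Qb (FBar N)] : Frame (modSym N A hℓN hA) where
  Y := polesOf (K := Qb) (Gin0.jF N)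
  nonneg := polesOf_nonneg _
  deg_pos := by
    rw [polesOf_eq_poleDiv, Gin0.degree_poleDiv_jF]
    have : 0 < dedekindPsi N := BarField.dedekindPsi_pos N
    exact_mod_cast this
  fixD := fixD_of_isStableDiv N A hℓN hA (Fin.isStableDiv_polesOf (jF_mem_fixF N _))

/-- **the standing hypotheses of the lifting block hold at every level prime to `ℓ`** -/
theorem modLiftCtx {g : ℕ} (hF : IsCurveOfGenus Qb (FBar N) g)
    (hFk : IsCurveOfGenus kA (FRes A N) g) :
    LiftCtx (modDatum N A hℓN hA) (modSym N A hℓN hA) g where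
  orth := modDatum_hasOrthonormalBases N A hℓN hA
  curve := hF
  curvek := hFk
  infinite_k := by
    have : IsAlgClosed kA := Gink.isAlgClosed_residueField A
    exact IsAlgClosed.instInfinite
  lifts := modSym_hasFixedLifts N A hℓN hA
  frame := by
    have := hF.hasPrincipalDivisors
    exact ⟨modFrame N A hℓN hA⟩

/-- **(Y0)** in the modular instance -/
theorem mod_fixedLiftPlaceStmt :
    FixedLiftPlaceStmt (modDatum N A hℓN hA) (modSym N A hℓN hA) := by
  obtain ⟨g, hF, hFk⟩ := exists_genus_modDatum N A hℓN hA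
  exact fixedLiftPlaceStmt (modLiftCtx N A hℓN hA hF hFk)

/-- **(Y)** in the modular instance -/
theorem mod_existsFamStmt {g : ℕ} (hF : IsCurveOfGenus Qb (FBar N) g)
    (hFk : IsCurveOfGenus kA (FRes A N) g) :
    ExistsFamStmt (modDatum N A hℓN hA) (modSym N A hℓN hA) g :=
  existsFamStmt (modLiftCtx N A hℓN hA hF hFk)

/-- **(K)** in the modular instance -/
theorem mod_kerStmt {g : ℕ} (hF : IsCurveOfGenus Qb (FBar N) g)
    (hFk : IsCurveOfGenus kA (FRes A N) g) [HasPrincipalDivisors Qb (FBar N)]
    [HasPrincipalDivisors kA (FRes A N)] :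
    KerStmt (modDatum N A hℓN hA) (modSym N A hℓN hA) g :=
  kerStmt_of (modDatum_hasOrthonormalBases N A hℓN hA) hF hFk

end Fermat.Agent.S19lib.B
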