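/-
S19lib / B / Config  (helper6, Project FF, block FF-B, part 3: residue side).

**Configurations** (the simplified design of Project FF): `m` effective divisors
`E_a = ∑ i, Pb a i` (`a : Fin m`) of degree `g` on a curve of genus `g`, with `m g` distinct points
outside a finite set `S`, each `E_a` non-special (`ℓ(E_a) = 1`), and an effective divisor `Cb`
avoiding all these points and `S` with `n Yb - Cb ∼ ∑ a, E_a`.

* `exists_nonspecial_family` : the points;
* `Config`, `exists_config`, `exists_config_of_rows` : the package and its existence (with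
  prescribed rows);
* `Config.ell_Bb` : `ℓ(n Yb - Cb) = (m - 1) g + 1`;
* `Config.rr_Bb_sub_others` : `L(B - ∑_{b ≠ a} E_b) = K s₀`.
-/
import Mathlib
import Fermat.Agent.S19lib.B.Avoid

set_option autoImplicit false
set_option linter.unusedSectionVars false

noncomputable section

namespace Fermat.Agent.S19lib.B

open AlgebraicCurve Module
open Fermat.Agent.S18lib Fermat.Agent.S18lib.Cech Fermat.Agent.S37lib

variable {K F : Type*} [Field K] [Field F] [Algebra K F] {g : ℕ}

/-- `m` non-special effective divisors of degree `g` with `m g` distinct points outside `S` -/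
theorem exists_nonspecial_family (hF : IsCurveOfGenus K F g) (S : Finset (Place K F)) (m : ℕ) :
    ∃ P : Fin m → Fin g → Place K F,
      Function.Injective (fun x : Fin m × Fin g => P x.1 x.2) ∧ (∀ a i, P a i ∉ S) ∧
      ∀ a, ell (∑ i, pt (P a i)) = 1 := by
  classical
  induction m with
  | zero =>
    exact ⟨fun a => a.elim0, fun x => x.1.elim0, fun a => a.elim0, fun a => a.elim0⟩
  | succ m ih =>
    obtain ⟨P, hPinj, hPS, hP⟩ := ih
    obtain ⟨Q, hQinj, hQS, hQ⟩ := exists_nonspecial hF
      (S ∪ Finset.univ.image (fun x : Fin m × Fin g => P x.1 x.2)) g le_rfl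
    have hQS' : ∀ i, Q i ∉ S := fun i h => hQS i (Finset.mem_union_left _ h)
    have hQP : ∀ i a j, Q i ≠ P a j := fun i a j h =>
      hQS i (Finset.mem_union_right _
        (Finset.mem_image.2 ⟨(a, j), Finset.mem_univ _, h.symm⟩))
    refine ⟨Fin.cons Q P, ?_, ?_, ?_⟩
    · rintro ⟨a, i⟩ ⟨b, j⟩ h
      simp only at h
      induction a using Fin.cases with
      | zero =>
        induction b using Fin.cases with
        | zero =>
          simp only [Fin.cons_zero] at h
          rw [hQinj h]
        | succ b =>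
          simp only [Fin.cons_zero, Fin.cons_succ] at h
          exact absurd h (hQP i b j)
      | succ a =>
        induction b using Fin.cases with
        | zero =>
          simp only [Fin.cons_zero, Fin.cons_succ] at h
          exact absurd h.symm (hQP j a i)
        | succ b =>
          simp only [Fin.cons_succ] at h
          have := hPinj (a₁ := (a, i)) (a₂ := (b, j)) h
          rw [Prod.mk.injEq] at this
          rw [this.1, this.2]
    · intro a i
      induction a using Fin.cases with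
      | zero => rw [Fin.cons_zero]; exact hQS' i
      | succ a => rw [Fin.cons_succ]; exact hPS a i
    · intro a
      induction a using Fin.cases with
      | zero => simp only [Fin.cons_zero]; exact hQ
      | succ a => simp only [Fin.cons_succ]; exact hP a

/-- **Configurations**: `m` non-special effective divisors of degree `g` with distinct points, and
an effective divisor `Cb` away from them with `n Yb - Cb ∼ ∑ a, E_a`. -/
structure Config (K F : Type*) [Field K] [Field F] [Algebra K F] (g m : ℕ)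
    (Yb : Divisor K F) (S : Finset (Place K F)) where
  /-- the points: `Pb a i` is the `i`-th point of `E_a` -/
  Pb : Fin m → Fin g → Place K F
  Pb_inj : Function.Injective (fun x : Fin m × Fin g => Pb x.1 x.2)
  Pb_notMem : ∀ a i, Pb a i ∉ S
  ell_Pb : ∀ a, ell (∑ i, pt (Pb a i)) = 1
  /-- the multiple of the frame divisor -/
  n : ℕ
  /-- the auxiliary effective divisor -/
  Cb : Divisor K F
  Cb_nonneg : 0 ≤ Cb
  Cb_Pb : ∀ a i, Cb (Pb a i) = 0
  Cb_S : ∀ P ∈ S, Cb P = 0
  /-- the section with divisor `∑ a, E_a - (n Yb - Cb)` -/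
  s0 : F
  s0_ne : s0 ≠ 0
  ord_s0 : ∀ v : Place K F,
    v.ord s0 + ((n : ℤ) • Yb - Cb) v = (∑ a, ∑ i, pt (Pb a i)) v

namespace Config

variable {m : ℕ} {Yb : Divisor K F} {S : Finset (Place K F)}

/-- `E_a` -/
def E (G : Config K F g m Yb S) (a : Fin m) : Divisor K F := ∑ i, pt (G.Pb a i)

/-- `B̄ = n Ȳ - C̄` -/
def Bb (G : Config K F g m Yb S) : Divisor K F := (G.n : ℤ) • Yb - G.Cb

theorem ord_s0_add (G : Config K F g m Yb S) (v : Place K F) :
    v.ord G.s0 + G.Bb v = (∑ a, G.E a) v := G.ord_s0 v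

theorem Bb_apply (G : Config K F g m Yb S) (v : Place K F) :
    G.Bb v = (G.n : ℤ) * Yb v - G.Cb v := by
  rw [Bb, Finsupp.sub_apply, Finsupp.smul_apply, smul_eq_mul]

theorem Bb_Pb (G : Config K F g m Yb S) (hS : ∀ P, Yb P ≠ 0 → P ∈ S) (a : Fin m) (i : Fin g) :
    G.Bb (G.Pb a i) = 0 := by
  have h : Yb (G.Pb a i) = 0 := by
    by_contra h0
    exact G.Pb_notMem a i (hS _ h0)
  rw [Bb_apply, h, G.Cb_Pb, mul_zero, sub_zero]

theorem Pb_injective (G : Config K F g m Yb S) (a : Fin m) : Function.Injective (G.Pb a) :=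
  fun i j h => by
    have := G.Pb_inj (a₁ := (a, i)) (a₂ := (a, j)) h
    exact (Prod.mk.injEq _ _ _ _ ▸ this).2

theorem Pb_ne (G : Config K F g m Yb S) {a b : Fin m} (hab : a ≠ b) (i j : Fin g) :
    G.Pb a i ≠ G.Pb b j := fun h => by
  have := G.Pb_inj (a₁ := (a, i)) (a₂ := (b, j)) h
  exact hab (Prod.mk.injEq _ _ _ _ ▸ this).1

theorem E_nonneg (G : Config K F g m Yb S) (a : Fin m) : 0 ≤ G.E a := sum_pt_nonneg _

theorem degree_E (hF : IsCurveOfGenus K F g) (G : Config K F g m Yb S) (a : Fin m) :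
    Divisor.degree (G.E a) = g := by
  rw [E, degree_sum_pt_fin hF, Fintype.card_fin]

theorem ell_E (G : Config K F g m Yb S) (a : Fin m) : ell (G.E a) = 1 := G.ell_Pb a

/-- the value of `E_a` at a place -/
theorem E_apply [DecidableEq (Place K F)] (G : Config K F g m Yb S) (a : Fin m)
    (v : Place K F) : G.E a v = if v ∈ Set.range (G.Pb a) then 1 else 0 :=
  sum_pt_apply _ (G.Pb_injective a) v

/-- `B̄ = ∑ E_a - div s₀` -/
theorem Bb_eq (hF : IsCurveOfGenus K F g) (G : Config K F g m Yb S) :
    haveI := hF.hasPrincipalDivisors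
    G.Bb = ∑ a, G.E a - divOf (K := K) G.s0 := by
  have := hF.hasPrincipalDivisors
  ext v
  have := G.ord_s0_add v
  rw [Finsupp.sub_apply, divOf_apply G.s0_ne, ← this]
  ring

theorem degree_Bb (hF : IsCurveOfGenus K F g) (G : Config K F g m Yb S) :
    Divisor.degree G.Bb = m * g := by
  have := hF.hasPrincipalDivisors
  rw [G.Bb_eq hF, map_sub, map_sum, degree_divOf,
    Finset.sum_congr rfl fun a _ => G.degree_E hF a]
  simp

/-- `ℓ(B̄) = (m - 1) g + 1` as soon as `m g > 2g - 2` (e.g. `m ≥ 2`) -/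
theorem ell_Bb (hF : IsCurveOfGenus K F g) (G : Config K F g m Yb S)
    (hm : 2 * (g : ℤ) - 2 < m * g) : (ell G.Bb : ℤ) = m * g + 1 - g := by
  have := hF.riemann_eq G.Bb (by rw [G.degree_Bb hF]; exact hm)
  rw [G.degree_Bb hF, ← ell_def] at this
  exact this

/-- `L(B̄ - ∑_{b ≠ a} E_b) = K s₀` -/
theorem rr_Bb_sub_others [DecidableEq (Fin m)] (hF : IsCurveOfGenus K F g)
    (G : Config K F g m Yb S) (a : Fin m) :
    riemannRochSpace (G.Bb - ∑ b ∈ Finset.univ.erase a, G.E b) = Submodule.span K {G.s0} := by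
  refine rr_eq_span_of_ell_one hF G.s0_ne (E := G.E a) (fun v => ?_) (G.E_nonneg a) (G.ell_E a)
  have h1 := G.ord_s0_add v
  have h2 : (∑ b, G.E b) v = G.E a v + (∑ b ∈ Finset.univ.erase a, G.E b) v := by
    rw [← Finsupp.add_apply, Finset.add_sum_erase _ _ (Finset.mem_univ a)]
  rw [Finsupp.sub_apply]
  linarith

end Config

/-- **configurations with prescribed rows** -/
theorem exists_config_of_rows (hF : IsCurveOfGenus K F g) [Infinite K] {m : ℕ} (Yb : Divisor K F)
    (hYb : 0 < Divisor.degree Yb) (S : Finset (Place K F)) (P : Fin m → Fin g → Place K F)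
    (hPinj : Function.Injective (fun x : Fin m × Fin g => P x.1 x.2))
    (hPS : ∀ a i, P a i ∉ S) (hP : ∀ a, ell (∑ i, pt (P a i)) = 1) :
    ∃ G : Config K F g m Yb S, G.Pb = P := by
  classical
  obtain ⟨n, hn⟩ : ∃ n : ℕ, ((m : ℤ) + 2) * g ≤ n * Divisor.degree Yb := by
    refine ⟨(m + 2) * g, ?_⟩
    push_cast
    have h1 : (0 : ℤ) ≤ ((m : ℤ) + 2) * g := by positivity
    nlinarith
  set M : Divisor K F := (n : ℤ) • Yb - ∑ a, ∑ i, pt (P a i) with hMdef
  have hdegM : 2 * (g : ℤ) ≤ Divisor.degree M := by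
    rw [hMdef, map_sub, map_zsmul, map_sum,
      Finset.sum_congr rfl fun a _ => degree_sum_pt_fin hF (P a), smul_eq_mul]
    simp only [Fintype.card_fin, Finset.sum_const, Finset.card_univ, nsmul_eq_mul]
    linarith
  obtain ⟨f, C, hf0, hC0, hCS, hCf⟩ := exists_effective_avoiding hF hdegM
    (S ∪ Finset.univ.image (fun x : Fin m × Fin g => P x.1 x.2))
  refine ⟨{ Pb := P, Pb_inj := hPinj, Pb_notMem := hPS, ell_Pb := hP, n := n, Cb := C,
            Cb_nonneg := hC0, Cb_Pb := fun a i => hCS _ ?_, Cb_S := fun Q hQ => hCS Q ?_,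
            s0 := f, s0_ne := hf0, ord_s0 := fun v => ?_ }, rfl⟩
  · exact Finset.mem_union_right _ (Finset.mem_image.2 ⟨(a, i), Finset.mem_univ _, rfl⟩)
  · exact Finset.mem_union_left _ hQ
  · have := hCf v
    rw [hMdef, Finsupp.sub_apply] at this
    rw [Finsupp.sub_apply, this]
    ring

/-- **existence of configurations** -/
theorem exists_config (hF : IsCurveOfGenus K F g) [Infinite K] (m : ℕ) (Yb : Divisor K F)
    (hYb : 0 < Divisor.degree Yb) (S : Finset (Place K F)) :
    Nonempty (Config K F g m Yb S) := by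
  obtain ⟨P, hPinj, hPS, hP⟩ := exists_nonspecial_family hF S m
  obtain ⟨G, -⟩ := exists_config_of_rows hF Yb hYb S P hPinj hPS hP
  exact ⟨G⟩

end Fermat.Agent.S19lib.B
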